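import Fermat.Agent.S43.Th.Kum
import Fermat.Agent.S43.Fin.Defs
import Fermat.Agent.S43.I.Vth

/-!
# S43/Th/Bridge : the three definitions of the `θ`-part of `ES.Kum N m` agree

`Fin.Vth N m S a` (the interface, helper45) `= I.Vth N m hNS a` (helper51) `= Th.Vθ N m S hNS a` (helper79),
and the toolkit of `Th/Kum.lean` restated for the interface `Fin.Vth`.
-/

set_option autoImplicit false
set_option linter.style.haveILetI false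
set_option linter.unusedSectionVars false
set_option linter.unusedVariables false

open AlgebraicCurve ModularCurve

namespace Fermat.Agent.S43.Th

open Fermat.Agent.ES Fermat.Agent.SS Fermat.Agent.S15.W
open Fermat.Agent.S44.Soft (XX mem_XX)

noncomputable section

variable {N : ℕ} [NeZero N] {S : Finset ℕ} {hNS : ∀ r : ℕ, r.Prime → r ∣ N → r ∈ S} {a : ℕ → ℤ}
  {m p k : ℕ}

theorem dd_eq_I (ℓ : GP S) :
    dd (TT N m S hNS) (fun ℓ => a ℓ.1) ℓ = I.TT N m hNS a ℓ := by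
  refine LinearMap.ext fun x => ?_
  rw [dd_apply, I.TT_apply]
  rfl

theorem I_Vth_eq : I.Vth N m hNS a = Vθ N m S hNS a := by
  ext x
  rw [I.mem_Vth]
  unfold Vθ
  rw [mem_Vth]
  simp only [dd_eq_I]

theorem dd_pow_eq_iterate (ℓ : GP S) (n : ℕ) (x : Kum N m) :
    (dd (TT N m S hNS) (fun ℓ => a ℓ.1) ℓ ^ n) x =
      (haveI : NeZero ℓ.1 := ⟨ℓ.2.1.ne_zero⟩;
        (Fin.hk N m a ℓ.1 ℓ.2.1 (ℓ.good hNS).2.2)^[n] x) := by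
  haveI : NeZero ℓ.1 := ⟨ℓ.2.1.ne_zero⟩
  induction n generalizing x with
  | zero => rfl
  | succ n ih =>
    rw [pow_succ, Module.End.mul_apply, ih, Function.iterate_succ_apply, dd_apply]
    rfl

theorem Fin_Vth_eq : Fin.Vth N m S a = Vθ N m S hNS a := by
  ext x
  rw [Fin.mem_Vth]
  unfold Vθ
  rw [mem_Vth]
  constructor
  · intro h ℓ
    haveI : NeZero ℓ.1 := ⟨ℓ.2.1.ne_zero⟩
    obtain ⟨n, hn⟩ := h ℓ.1 ℓ.2.1 (ℓ.good hNS).2.2 ℓ.2.2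
    exact ⟨n, by rw [dd_pow_eq_iterate]; exact hn⟩
  · intro h ℓ _ hℓ hℓN hℓS
    obtain ⟨n, hn⟩ := h ⟨ℓ, hℓ, hℓS⟩
    rw [dd_pow_eq_iterate] at hn
    exact ⟨n, hn⟩

theorem Fin_Vth_eq_I : Fin.Vth N m S a = I.Vth N m hNS a := by
  rw [I_Vth_eq, Fin_Vth_eq]

/-! ### the toolkit for the interface `Fin.Vth` -/

/-- an additive map commuting with the Galois action commutes with `T_ℓ` (Eichler-Shimura). -/
theorem hecke_of_gal {N' m' ℓ : ℕ} [NeZero N'] [NeZero ℓ] (hm : m ≠ 0) (hm' : m' ≠ 0)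
    (hℓ : ℓ.Prime) (hℓN : ¬ ℓ ∣ N) (hℓN' : ¬ ℓ ∣ N') (hℓm : ¬ ℓ ∣ m) (hℓm' : ¬ ℓ ∣ m')
    (f : Kum N m →+ Kum N' m') (hf : ∀ σ x, f (galKum N m σ x) = galKum N' m' σ (f x))
    (x : Kum N m) : f (heckeKum N ℓ hℓ hℓN m x) = heckeKum N' ℓ hℓ hℓN' m' (f x) := by
  obtain ⟨A, hA, φ, hφ⟩ := Fermat.Agent.S54.exists_frob ℓ hℓ
  rw [Fermat.Agent.S44.Soft.heckeKum_eq_frob hm hℓ hℓN hℓm A hA φ hφ,
    Fermat.Agent.S44.Soft.heckeKum_eq_frob hm' hℓ hℓN' hℓm' A hA φ hφ, map_add, map_nsmul, hf, hf]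

/-- additive maps commuting with the `T_ℓ`, `ℓ ∉ S`, preserve `Fin.Vth`. -/
theorem fin_map_mem {N' m' : ℕ} [NeZero N'] (hNS : ∀ r : ℕ, r.Prime → r ∣ N → r ∈ S)
    (hNS' : ∀ r : ℕ, r.Prime → r ∣ N' → r ∈ S) (f : Kum N m →+ Kum N' m')
    (hf : ∀ (ℓ : ℕ) [NeZero ℓ] (hℓ : ℓ.Prime) (hℓN : ¬ ℓ ∣ N) (hℓN' : ¬ ℓ ∣ N'), ℓ ∉ S →
      ∀ x, f (heckeKum N ℓ hℓ hℓN m x) = heckeKum N' ℓ hℓ hℓN' m' (f x))
    {x : Kum N m} (hx : x ∈ Fin.Vth N m S a) : f x ∈ Fin.Vth N' m' S a := by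
  rw [Fin_Vth_eq (hNS := hNS)] at hx
  rw [Fin_Vth_eq (hNS := hNS')]
  exact map_mem f hf hx

/-- additive maps commuting with the Galois action preserve `Fin.Vth` (`p`-power exponents, `p ∈ S`). -/
theorem fin_map_mem_of_gal {N' k' : ℕ} [NeZero N'] (hNS : ∀ r : ℕ, r.Prime → r ∣ N → r ∈ S)
    (hNS' : ∀ r : ℕ, r.Prime → r ∣ N' → r ∈ S) (hp : p.Prime) (hpS : p ∈ S)
    (f : Kum N (p ^ k) →+ Kum N' (p ^ k'))
    (hf : ∀ σ x, f (galKum N (p ^ k) σ x) = galKum N' (p ^ k') σ (f x))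
    {x : Kum N (p ^ k)} (hx : x ∈ Fin.Vth N (p ^ k) S a) : f x ∈ Fin.Vth N' (p ^ k') S a := by
  refine fin_map_mem hNS hNS' f (fun ℓ _ hℓ hℓN hℓN' hℓS y => ?_) hx
  have hℓp : ∀ j : ℕ, ¬ ℓ ∣ p ^ j := fun j h =>
    hℓS (((Nat.prime_dvd_prime_iff_eq hℓ hp).1 (hℓ.dvd_of_dvd_pow h)) ▸ hpS)
  exact hecke_of_gal (pow_pos hp.pos k).ne' (pow_pos hp.pos k').ne' hℓ hℓN hℓN' (hℓp k) (hℓp k')
    f hf y

theorem fin_gal_mem (hNS : ∀ r : ℕ, r.Prime → r ∣ N → r ∈ S) (σ : GQ) {x : Kum N m}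
    (hx : x ∈ Fin.Vth N m S a) : galKum N m σ x ∈ Fin.Vth N m S a := by
  rw [Fin_Vth_eq (hNS := hNS)] at hx ⊢
  exact gal_mem σ hx

theorem fin_trans_mem (hNS : ∀ r : ℕ, r.Prime → r ∣ N → r ∈ S) {m' : ℕ} (h : m' ∣ m)
    {x : Kum N m} (hx : x ∈ Fin.Vth N m S a) : Kum.trans N h x ∈ Fin.Vth N m' S a := by
  rw [Fin_Vth_eq (hNS := hNS)] at hx ⊢
  exact trans_mem h hx

theorem fin_incl_mem (hNS : ∀ r : ℕ, r.Prime → r ∣ N → r ∈ S) (j : ℕ)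
    {x : Kum N m} (hx : x ∈ Fin.Vth N m S a) : Kum.incl N m j x ∈ Fin.Vth N (m * j) S a := by
  rw [Fin_Vth_eq (hNS := hNS)] at hx ⊢
  exact incl_mem j hx

theorem fin_hecke_mem (hNS : ∀ r : ℕ, r.Prime → r ∣ N → r ∈ S) {r : ℕ} [NeZero r]
    (hr : r.Prime) (hrN : ¬ r ∣ N) {x : Kum N m} (hx : x ∈ Fin.Vth N m S a) :
    heckeKum N r hr hrN m x ∈ Fin.Vth N m S a :=
  fin_map_mem hNS hNS (heckeKum N r hr hrN m)
    (fun ℓ _ hℓ hℓN _ _ y => heckeKum_comm r ℓ hr hrN hℓ hℓN y) hx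

theorem fin_mem_of_XX (hNS : ∀ r : ℕ, r.Prime → r ∣ N → r ∈ S) {x : Kum N p}
    (hx : x ∈ XX N p S a) : x ∈ Fin.Vth N p S a := by
  rw [Fin_Vth_eq (hNS := hNS)]
  exact mem_of_XX hx

/-- `Sep` kills the `θ`-part at every `p`-power exponent. -/
theorem fin_eq_zero_of_sep (hNS : ∀ r : ℕ, r.Prime → r ∣ N → r ∈ S) (hp : p.Prime)
    (h : Sep N p S hNS a) {x : Kum N (p ^ k)} (hx : x ∈ Fin.Vth N (p ^ k) S a) : x = 0 := by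
  rw [Fin_Vth_eq (hNS := hNS)] at hx
  exact eq_zero_of_sep hp h hx

/-- a nonzero Hecke-stable subgroup of `Fin.Vth` contains an eigenvector killed by `p`. -/
theorem fin_exists_eigen (hNS : ∀ r : ℕ, r.Prime → r ∣ N → r ∈ S) (hp : p.Prime)
    (U : AddSubgroup (Kum N (p ^ k))) (hU : U ≠ ⊥)
    (hUT : ∀ (ℓ : ℕ) [NeZero ℓ] (hℓ : ℓ.Prime) (hℓN : ¬ ℓ ∣ N), ℓ ∉ S →
      ∀ x ∈ U, heckeKum N ℓ hℓ hℓN (p ^ k) x ∈ U)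
    (hUθ : U ≤ Fin.Vth N (p ^ k) S a) :
    ∃ x ∈ U, x ≠ 0 ∧ p • x = 0 ∧ ∀ (ℓ : ℕ) [NeZero ℓ] (hℓ : ℓ.Prime) (hℓN : ¬ ℓ ∣ N), ℓ ∉ S →
      heckeKum N ℓ hℓ hℓN (p ^ k) x = a ℓ • x := by
  rw [Fin_Vth_eq (hNS := hNS)] at hUθ
  exact exists_eigen_kum hp U hU hUT hUθ

/-- a nonzero Galois-stable subgroup of `Fin.Vth` contains an eigenvector killed by `p`. -/
theorem fin_exists_eigen_of_gal (hNS : ∀ r : ℕ, r.Prime → r ∣ N → r ∈ S) (hp : p.Prime)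
    (hpS : p ∈ S) (U : AddSubgroup (Kum N (p ^ k))) (hU : U ≠ ⊥)
    (hUG : ∀ σ : GQ, ∀ x ∈ U, galKum N (p ^ k) σ x ∈ U)
    (hUθ : U ≤ Fin.Vth N (p ^ k) S a) :
    ∃ x ∈ U, x ≠ 0 ∧ p • x = 0 ∧ ∀ (ℓ : ℕ) [NeZero ℓ] (hℓ : ℓ.Prime) (hℓN : ¬ ℓ ∣ N), ℓ ∉ S →
      heckeKum N ℓ hℓ hℓN (p ^ k) x = a ℓ • x := by
  refine fin_exists_eigen hNS hp U hU (fun ℓ _ hℓ hℓN hℓS x hx => ?_) hUθ
  have hℓp : ¬ ℓ ∣ p ^ k := fun h =>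
    hℓS (((Nat.prime_dvd_prime_iff_eq hℓ hp).1 (hℓ.dvd_of_dvd_pow h)) ▸ hpS)
  obtain ⟨A, hA, φ, hφ⟩ := Fermat.Agent.S54.exists_frob ℓ hℓ
  rw [Fermat.Agent.S44.Soft.heckeKum_eq_frob (pow_pos hp.pos k).ne' hℓ hℓN hℓp A hA φ hφ]
  exact U.add_mem (hUG _ _ hx) (U.nsmul_mem (hUG _ _ hx) _)

/-- the Weil pairing is non degenerate on `Fin.Vth`, at every `p`-power exponent. -/
theorem fin_nondeg (hNS : ∀ r : ℕ, r.Prime → r ∣ N → r ∈ S) (hp : p.Prime)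
    {x : Kum N (p ^ k)} (hx : x ∈ Fin.Vth N (p ^ k) S a) (hx0 : x ≠ 0) :
    ∃ y ∈ Fin.Vth N (p ^ k) S a, e1N x y ≠ 1 := by
  rw [Fin_Vth_eq (hNS := hNS)] at hx ⊢
  exact e1N_nondeg_θ hp hx hx0

/-! ### level `M q` -/

section Mq

variable {M q : ℕ} [NeZero M] [NeZero q] {w : FF (M * q) →ₐ[Qb] FF (M * q)}

theorem fin_wKum_mem (hMS : ∀ r : ℕ, r.Prime → r ∣ M * q → r ∈ S) (hp : p.Prime) (hpS : p ∈ S)
    (hw : IsAL M q w) (hq : q.Prime) {x : Kum (M * q) (p ^ k)}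
    (hx : x ∈ Fin.Vth (M * q) (p ^ k) S a) : wKum hw hq (p ^ k) x ∈ Fin.Vth (M * q) (p ^ k) S a :=
  fin_map_mem_of_gal hMS hMS hp hpS (wKum hw hq (p ^ k))
    (fun σ y => (galKum_wKum hw hq σ y).symm) hx

theorem fin_nmKum_mem (hMS : ∀ r : ℕ, r.Prime → r ∣ M * q → r ∈ S) (hp : p.Prime) (hpS : p ∈ S)
    (hq : q.Prime) (hqM : ¬ q ∣ M) {x : Kum (M * q) (p ^ k)}
    (hx : x ∈ Fin.Vth (M * q) (p ^ k) S a) : nmKum M q (p ^ k) x ∈ Fin.Vth M (p ^ k) S a :=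
  fin_map_mem_of_gal hMS (fun r hr h => hMS r hr (h.mul_right q)) hp hpS (nmKum M q (p ^ k))
    (fun σ y => (galKum_nmKum hq hqM σ y).symm) hx

/-- the `θ`-part is `q`-new: the trace to level `M` vanishes. -/
theorem fin_nmKum_eq_zero (hMS : ∀ r : ℕ, r.Prime → r ∣ M * q → r ∈ S) (hp : p.Prime)
    (hpS : p ∈ S) (hq : q.Prime) (hqM : ¬ q ∣ M)
    (hSep : Sep M p S (fun r hr h => hMS r hr (h.mul_right q)) a) {x : Kum (M * q) (p ^ k)}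
    (hx : x ∈ Fin.Vth (M * q) (p ^ k) S a) : nmKum M q (p ^ k) x = 0 :=
  fin_eq_zero_of_sep _ hp hSep (fin_nmKum_mem hMS hp hpS hq hqM hx)

/-- the same after `w`. -/
theorem fin_nmKum_wKum_eq_zero (hMS : ∀ r : ℕ, r.Prime → r ∣ M * q → r ∈ S) (hp : p.Prime)
    (hpS : p ∈ S) (hw : IsAL M q w) (hq : q.Prime) (hqM : ¬ q ∣ M)
    (hSep : Sep M p S (fun r hr h => hMS r hr (h.mul_right q)) a) {x : Kum (M * q) (p ^ k)}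
    (hx : x ∈ Fin.Vth (M * q) (p ^ k) S a) : nmKum M q (p ^ k) (wKum hw hq (p ^ k) x) = 0 :=
  fin_nmKum_eq_zero hMS hp hpS hq hqM hSep (fin_wKum_mem hMS hp hpS hw hq hx)

end Mq

end

end Fermat.Agent.S43.Th
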