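import Fermat.Agent.S43.Th.Abs
import Fermat.Agent.S43.Defs
import Fermat.Agent.S43.ND.Main
import Fermat.Agent.S44.Soft.Comm
import Fermat.Agent.S41.D.Level
import Fermat.Agent.S15.W.ModLevel

/-!
# S43/Th : the `θ`-part of `ES.Kum N m`

`TT N m S hNS : GP S → Module.End ℤ (Kum N m)` the Hecke operators `T_ℓ`, `ℓ ∉ S`;
`Vθ N m S hNS a = Th.Vth TT a`, `Vc N m S hNS a p hp = Th.Vco TT a p`.

Everything is a direct instance of `Th/Abs.lean`.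
-/

set_option autoImplicit false
set_option linter.style.haveILetI false
set_option linter.unusedSectionVars false
set_option linter.unusedVariables false

open AlgebraicCurve ModularCurve

namespace Fermat.Agent.S43.Th

open Fermat.Agent.ES Fermat.Agent.SS Fermat.Agent.S15.W
open Fermat.Agent.S44.Soft (XX mem_XX heckeKum_eq_frob)

noncomputable section

variable {N : ℕ} [NeZero N] {S : Finset ℕ}

/-- the Hecke operators outside `S`. -/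
def TT (N m : ℕ) [NeZero N] (S : Finset ℕ) (hNS : ∀ r : ℕ, r.Prime → r ∣ N → r ∈ S) :
    GP S → Module.End ℤ (Kum N m) := fun ℓ => heckeT N m (ℓ.good hNS)

theorem TT_apply (m : ℕ) (hNS : ∀ r : ℕ, r.Prime → r ∣ N → r ∈ S) (ℓ : GP S) (x : Kum N m) :
    TT N m S hNS ℓ x = (haveI : NeZero ℓ.1 := ⟨ℓ.2.1.ne_zero⟩;
      heckeKum N ℓ.1 ℓ.2.1 (ℓ.good hNS).2.2 m x) := rfl

theorem TT_comm (m : ℕ) (hNS : ∀ r : ℕ, r.Prime → r ∣ N → r ∈ S) (i j : GP S) :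
    Commute (TT N m S hNS i) (TT N m S hNS j) := by
  haveI : NeZero i.1 := ⟨i.2.1.ne_zero⟩
  haveI : NeZero j.1 := ⟨j.2.1.ne_zero⟩
  exact LinearMap.ext fun x => heckeKum_comm i.1 j.1 i.2.1 _ j.2.1 _ x

/-- the `θ`-part. -/
def Vθ (N m : ℕ) [NeZero N] (S : Finset ℕ) (hNS : ∀ r : ℕ, r.Prime → r ∣ N → r ∈ S)
    (a : ℕ → ℤ) : AddSubgroup (Kum N m) := Vth (TT N m S hNS) (fun ℓ => a ℓ.1)

/-- the complement of the `θ`-part. -/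
def Vc (N m : ℕ) [NeZero N] (S : Finset ℕ) (hNS : ∀ r : ℕ, r.Prime → r ∣ N → r ∈ S)
    (a : ℕ → ℤ) (p : ℕ) (hp : p.Prime) : AddSubgroup (Kum N m) :=
  Vco (TT N m S hNS) (TT_comm m hNS) (fun ℓ => a ℓ.1) p hp

variable {hNS : ∀ r : ℕ, r.Prime → r ∣ N → r ∈ S} {a : ℕ → ℤ} {p k : ℕ}

theorem killed (x : Kum N (p ^ k)) : (p ^ k) • x = 0 := Kum.nsmul_eq_zero x

/-- `Kum = Vθ ⊕ Vc`. -/
theorem decomp (hp : p.Prime) (x : Kum N (p ^ k)) :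
    ∃ y ∈ Vθ N (p ^ k) S hNS a, ∃ z ∈ Vc N (p ^ k) S hNS a p hp, x = y + z := by
  haveI : Finite (Kum N (p ^ k)) := Glue.finite_Kum (pow_pos hp.pos k)
  exact exists_decomp (TT_comm _ hNS) _ hp x

theorem eq_zero_of_mem (hp : p.Prime) {x : Kum N (p ^ k)} (hx : x ∈ Vθ N (p ^ k) S hNS a)
    (hx' : x ∈ Vc N (p ^ k) S hNS a p hp) : x = 0 := by
  haveI : Finite (Kum N (p ^ k)) := Glue.finite_Kum (pow_pos hp.pos k)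
  exact inf_eq_bot (TT_comm _ hNS) hp killed hx hx'

/-- additive maps commuting with the Hecke operators preserve `Vθ`. -/
theorem map_mem {N' m m' : ℕ} [NeZero N'] {hNS' : ∀ r : ℕ, r.Prime → r ∣ N' → r ∈ S}
    (f : Kum N m →+ Kum N' m')
    (hf : ∀ (ℓ : ℕ) [NeZero ℓ] (hℓ : ℓ.Prime) (hℓN : ¬ ℓ ∣ N) (hℓN' : ¬ ℓ ∣ N'), ℓ ∉ S →
      ∀ x, f (heckeKum N ℓ hℓ hℓN m x) = heckeKum N' ℓ hℓ hℓN' m' (f x))
    {x : Kum N m} (hx : x ∈ Vθ N m S hNS a) : f x ∈ Vθ N' m' S hNS' a :=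
  map_mem_Vth f (fun ℓ y => by
    haveI : NeZero ℓ.1 := ⟨ℓ.2.1.ne_zero⟩
    exact hf ℓ.1 ℓ.2.1 _ _ ℓ.2.2 y) hx

theorem map_mem_c {N' m m' : ℕ} [NeZero N'] {hNS' : ∀ r : ℕ, r.Prime → r ∣ N' → r ∈ S}
    (hp : p.Prime) (f : Kum N m →+ Kum N' m')
    (hf : ∀ (ℓ : ℕ) [NeZero ℓ] (hℓ : ℓ.Prime) (hℓN : ¬ ℓ ∣ N) (hℓN' : ¬ ℓ ∣ N'), ℓ ∉ S →
      ∀ x, f (heckeKum N ℓ hℓ hℓN m x) = heckeKum N' ℓ hℓ hℓN' m' (f x))
    {x : Kum N m} (hx : x ∈ Vc N m S hNS a p hp) : f x ∈ Vc N' m' S hNS' a p hp :=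
  map_mem_Vco f (fun ℓ y => by
    haveI : NeZero ℓ.1 := ⟨ℓ.2.1.ne_zero⟩
    exact hf ℓ.1 ℓ.2.1 _ _ ℓ.2.2 y) hx

/-- Galois stability. -/
theorem gal_mem {m : ℕ} (σ : GQ) {x : Kum N m} (hx : x ∈ Vθ N m S hNS a) :
    galKum N m σ x ∈ Vθ N m S hNS a :=
  map_mem (hNS' := hNS) (galKum N m σ)
    (fun ℓ _ hℓ hℓN _ _ y => galKum_heckeKum N ℓ hℓ hℓN σ y) hx

theorem gal_mem_c {m : ℕ} (hp : p.Prime) (σ : GQ) {x : Kum N m} (hx : x ∈ Vc N m S hNS a p hp) :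
    galKum N m σ x ∈ Vc N m S hNS a p hp :=
  map_mem_c (hNS' := hNS) hp (galKum N m σ)
    (fun ℓ _ hℓ hℓN _ _ y => galKum_heckeKum N ℓ hℓ hℓN σ y) hx

/-- `trans`. -/
theorem trans_mem {m m' : ℕ} (h : m' ∣ m) {x : Kum N m} (hx : x ∈ Vθ N m S hNS a) :
    Kum.trans N h x ∈ Vθ N m' S hNS a :=
  map_mem (hNS' := hNS) (Kum.trans N h) (fun ℓ _ hℓ hℓN _ _ y => Kum.trans_heckeKum h ℓ hℓ hℓN y) hx

/-- `incl`. -/
theorem incl_mem {m' : ℕ} (j : ℕ) {x : Kum N m'} (hx : x ∈ Vθ N m' S hNS a) :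
    Kum.incl N m' j x ∈ Vθ N (m' * j) S hNS a :=
  map_mem (hNS' := hNS) (Kum.incl N m' j)
    (fun ℓ _ hℓ hℓN _ _ y => Kum.incl_heckeKum j ℓ hℓ hℓN y) hx

/-- the eigenspace lies in `Vθ`. -/
theorem mem_of_XX {x : Kum N p} (hx : x ∈ XX N p S a) : x ∈ Vθ N p S hNS a := by
  intro ℓ
  refine ⟨1, ?_⟩
  haveI : NeZero ℓ.1 := ⟨ℓ.2.1.ne_zero⟩
  have h := (mem_XX.1 hx) ℓ.1 ℓ.2.1 (ℓ.good hNS).2.2 ℓ.2.2
  rw [pow_one, dd_apply, TT_apply]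
  exact sub_eq_zero.2 h

/-- `Sep` kills the `θ`-part. -/
theorem eq_zero_of_sep (hp : p.Prime) (h : Sep N p S hNS a) {x : Kum N (p ^ k)}
    (hx : x ∈ Vθ N (p ^ k) S hNS a) : x = 0 := by
  obtain ⟨Pol, h1, h2⟩ := h
  refine eq_zero_of_mem hp hx ⟨Pol, ?_, h2⟩
  have := h1 (p ^ k) (pow_pos hp.pos k)
  show FreeAlgebra.lift ℤ (fun ℓ : GP S => heckeT N (p ^ k) (ℓ.good hNS)) Pol x = 0
  rw [this]
  rfl

/-- a nonzero Hecke-stable subgroup of `Vθ` contains an eigenvector killed by `p`. -/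
theorem exists_eigen_kum (hp : p.Prime) (U : AddSubgroup (Kum N (p ^ k))) (hU : U ≠ ⊥)
    (hUT : ∀ (ℓ : ℕ) [NeZero ℓ] (hℓ : ℓ.Prime) (hℓN : ¬ ℓ ∣ N), ℓ ∉ S →
      ∀ x ∈ U, heckeKum N ℓ hℓ hℓN (p ^ k) x ∈ U)
    (hUθ : U ≤ Vθ N (p ^ k) S hNS a) :
    ∃ x ∈ U, x ≠ 0 ∧ p • x = 0 ∧ ∀ (ℓ : ℕ) [NeZero ℓ] (hℓ : ℓ.Prime) (hℓN : ¬ ℓ ∣ N), ℓ ∉ S →
      heckeKum N ℓ hℓ hℓN (p ^ k) x = a ℓ • x := by
  haveI : Finite (Kum N (p ^ k)) := Glue.finite_Kum (pow_pos hp.pos k)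
  obtain ⟨x, hxU, hx0, hpx, hx⟩ := exists_eigen (TT_comm _ hNS) killed U hU
    (fun ℓ y hy => by
      haveI : NeZero ℓ.1 := ⟨ℓ.2.1.ne_zero⟩
      exact hUT ℓ.1 ℓ.2.1 _ ℓ.2.2 y hy) hUθ
  exact ⟨x, hxU, hx0, hpx, fun ℓ _ hℓ hℓN hℓS => hx ⟨ℓ, hℓ, hℓS⟩⟩

/-! ### the Weil pairing -/

/-- `Vθ ⊥ Vc`. -/
theorem e1N_orth (hp : p.Prime) {x y : Kum N (p ^ k)} (hx : x ∈ Vθ N (p ^ k) S hNS a)
    (hy : y ∈ Vc N (p ^ k) S hNS a p hp) : e1N x y = 1 := by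
  haveI : Finite (Kum N (p ^ k)) := Glue.finite_Kum (pow_pos hp.pos k)
  have he : p ^ k ≠ 0 := (pow_pos hp.pos k).ne'
  have h := orth (TT_comm _ hNS) hp killed (e1NHom he) (fun ℓ u v => by
    haveI : NeZero ℓ.1 := ⟨ℓ.2.1.ne_zero⟩
    apply Additive.toMul.injective
    apply Units.ext
    rw [e1NHom_apply, e1NHom_apply]
    exact e1N_hecke he ℓ.2.1 _ u v) hx hy
  have h2 := e1NHom_apply he x y
  rw [h] at h2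
  exact h2.symm

/-- the pairing is non degenerate on `Vθ`. -/
theorem e1N_nondeg_θ (hp : p.Prime) {x : Kum N (p ^ k)} (hx : x ∈ Vθ N (p ^ k) S hNS a)
    (hx0 : x ≠ 0) : ∃ y ∈ Vθ N (p ^ k) S hNS a, e1N x y ≠ 1 := by
  have he : p ^ k ≠ 0 := (pow_pos hp.pos k).ne'
  have halg : Algebra.IsAlgebraic ℚ (AlgebraicClosure ℚ) :=
    (inferInstance : @Algebra.IsAlgebraic ℚ (AlgebraicClosure ℚ) _ _
      (AlgebraicClosure.instAlgebra ℚ))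
  obtain ⟨b, hb⟩ := ND.e1K_nondeg_gen (K := Qb) (F := FF N) he
    ((IsAlgClosed.lift : AlgebraicClosure ℚ →ₐ[ℚ] ℂ) : AlgebraicClosure ℚ →+* ℂ)
    (a := toB1 N (p ^ k) x) (fun h => hx0 ((toB1 N (p ^ k)).map_eq_zero_iff.1 h))
  obtain ⟨y, hy, z, hz, hyz⟩ := decomp (hNS := hNS) (a := a) hp ((toB1 N (p ^ k)).symm b)
  refine ⟨y, hy, fun h1 => hb ?_⟩
  have h2 : e1N x ((toB1 N (p ^ k)).symm b) = 1 := by
    rw [hyz, e1N_add_right he, h1, e1N_orth hp hx hz, one_mul]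
  unfold e1N at h2
  rwa [AddEquiv.apply_symm_apply] at h2

end

end Fermat.Agent.S43.Th
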