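import Fermat.Agent.S43.Th.Adj
import Fermat.Agent.S43.R0.Push
import Fermat.Agent.S43.CH.F1
import Fermat.Agent.S43.ND.Main
import Fermat.Agent.S43.I.Vth
import Fermat.Agent.S31.Cyclo
import Fermat.Agent.Crux.Main

/-!
# S43 / Th / KK : the `θ`-part `K0` of `KK = B1.Kum Qb (F1Q N).F (p ^ k)` and the Weil pairing on it

`K0 = {y | ∀ ℓ ∉ S, T_ℓ - a ℓ nilpotent at y, ∀ d, ⟨d⟩ - 1 nilpotent at y}`.

* `heckeK_adj`, `diaK_adj` : `e(T_ℓ x, y) = e(x, ⟨ℓ⟩⁻¹ T_ℓ y)`, `e(⟨d⟩ x, y) = e(x, ⟨d⟩⁻¹ y)`;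
* `ndK`                    : the Weil pairing is non degenerate on `K0`  (shape of `Ctl.Hyp.ndK`);
* `gal_mem_K0`, `dia_mem_K0`, `mem_K0_of_comm` (any additive map commuting with `T_ℓ`, `⟨d⟩` preserves `K0`);
* `pull_hecke`, `push_hecke`, `pull_mem_K0`, `push_mem_Vth`.
-/

set_option autoImplicit false
set_option linter.unusedSectionVars false
set_option linter.style.haveILetI false

open AlgebraicCurve ModularCurve

namespace Fermat.Agent.S43.Th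

open Fermat.Agent.S48 Fermat.Agent.S26 Fermat.Agent.S43.R0
open Fermat.Agent.ES (Qb GQ FF)
open Fermat.Agent.SS (GP)
open Fermat.Agent.S15.W (e1K e1Hom e1Hom_apply)

noncomputable section

variable {N : ℕ} [NeZero N] (hN : 5 ≤ N)

/-- a finite extension of a function field of one variable is one. -/
theorem ff1_along {K : Type*} {F₁ F₂ : Type} [Field K] [Field F₁] [Field F₂] [Algebra K F₁]
    [Algebra K F₂] [FF1 K F₁] (ι : F₁ →ₐ[K] F₂)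
    (hfin : @Module.Finite F₁ F₂ _ _ (algebraAlong ι).toModule) : FF1 K F₂ := by
  letI : Algebra F₁ F₂ := algebraAlong ι
  haveI : IsScalarTower K F₁ F₂ := isScalarTower_along ι
  haveI : Module.Finite F₁ F₂ := hfin
  exact Sq.ff1_of_finite K F₁ F₂

include hN in
/-- `F1(N)` is a function field of one variable. -/
theorem ff1_F1 : FF1 Qb (X1.F1Q N).F := ff1_along (incl hN) (finite_along hN)

/-- the abstract computation of the adjoint of `T = φ + n D φ⁻¹`. -/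
theorem adj_abs {X C : Type*} [AddCommGroup X] [AddCommGroup C] (B : X →+ X →+ C)
    (φ φi D Di T : X →+ X) (n : ℕ) (hφ : ∀ z, φ (φi z) = z) (hD : ∀ z, D (Di z) = z)
    (hDi : ∀ z, Di (D z) = z) (hBφ : ∀ x y, B (φ x) (φ y) = n • B x y)
    (hBD : ∀ x y, B (D x) (D y) = B x y) (hT : ∀ z, T z = φ z + n • D (φi z))
    (hc : ∀ z, Di (φ z) = φ (Di z)) (x y : X) : B (T x) y = B x (Di (T y)) := by
  have e1 : B (φ x) y = n • B x (φi y) := by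
    conv_lhs => rw [← hφ y]
    exact hBφ x (φi y)
  have e2 : n • B (D (φi x)) y = B x (φ (Di y)) := by
    have h1 : B (D (φi x)) y = B (φi x) (Di y) := by
      conv_lhs => rw [← hD y]
      exact hBD _ _
    rw [h1, ← hBφ, hφ]
  rw [hT x, hT y, map_add, AddMonoidHom.add_apply, map_nsmul, AddMonoidHom.nsmul_apply, e1, e2,
    map_add, map_nsmul, hDi, hc, map_add, map_nsmul, add_comm]

variable {p : ℕ} (hp : p.Prime) (k : ℕ) {S : Finset ℕ}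
  (hNS : ∀ r : ℕ, r.Prime → r ∣ N → r ∈ S) (hpS : p ∈ S) (a : ℕ → ℤ)

include hp in
theorem hDK : (HD hN).PreservesDm (p ^ k) := CH.preservesDm_F1 N hN (pow_pos hp.pos k)

include hN hp hNS hpS in
theorem cruxK (ℓ : GP S) : B1.Crux1 (X1.F1Q N) ℓ.1 (p ^ k) :=
  CH.crux1_F1 N hN hp k ℓ.1 ℓ.2.1 (ℓ.good hNS).2.2 (fun h => ℓ.2.2 (h ▸ hpS))

/-- `T_ℓ` on `KK`. -/
def TlK (ℓ : GP S) : Module.End ℤ (B1.Kum Qb (X1.F1Q N).F (p ^ k)) :=
  (B1.heckeKum (HD hN) (hDK hN hp k) (ℓ.good hNS)).toIntLinearMap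

/-- the diamond operators on `KK`. -/
def DrK : (ZMod N)ˣ →* Module.End ℤ (B1.Kum Qb (X1.F1Q N).F (p ^ k)) := B1.diaRepZ (HD hN) (p ^ k)

/-- the class of `ℓ`. -/
def gK (ℓ : GP S) : (ZMod N)ˣ := B1.gpUnit (ℓ.good hNS)

theorem TlK_apply (ℓ : GP S) (x : B1.Kum Qb (X1.F1Q N).F (p ^ k)) :
    TlK hN hp k hNS ℓ x = B1.heckeKum (HD hN) (hDK hN hp k) (ℓ.good hNS) x := rfl

theorem DrK_apply (d : (ZMod N)ˣ) (x : B1.Kum Qb (X1.F1Q N).F (p ^ k)) :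
    DrK (p := p) hN k d x = B1.diaKum (HD hN) (p ^ k) d x := rfl

/-- **the `θ`-part of `KK`.** -/
def K0 : AddSubgroup (B1.Kum Qb (X1.F1Q N).F (p ^ k)) :=
  Vth (fam (TlK hN hp k hNS) (DrK hN k)) (lamS (ZMod N)ˣ (fun ℓ : GP S => a ℓ.1))

theorem mem_K0 {y : B1.Kum Qb (X1.F1Q N).F (p ^ k)} :
    y ∈ K0 hN hp k hNS a ↔
      (∀ ℓ : GP S, ∃ n : ℕ, ((TlK hN hp k hNS ℓ - algebraMap ℤ _ (a ℓ.1)) ^ n) y = 0) ∧
      (∀ d : (ZMod N)ˣ, ∃ n : ℕ, ((DrK hN k d - algebraMap ℤ _ 1) ^ n) y = 0) :=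
  ⟨fun h => ⟨fun ℓ => h (Sum.inl ℓ), fun d => h (Sum.inr d)⟩, fun h i => by
    rcases i with ℓ | d
    · exact h.1 ℓ
    · exact h.2 d⟩

include hpS in
theorem TlK_comm (ℓ ℓ' : GP S) : Commute (TlK hN hp k hNS ℓ) (TlK hN hp k hNS ℓ') :=
  LinearMap.ext fun x => B1.heckeKum_comm (HD hN) (hDK hN hp k) (pow_pos hp.pos k).ne' _ _
    (cruxK hN hp k hNS hpS ℓ) x

theorem DrK_TlK_comm (d : (ZMod N)ˣ) (ℓ : GP S) :
    Commute (DrK hN k d) (TlK hN hp k hNS ℓ) :=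
  LinearMap.ext fun x => B1.diaKum_heckeKum (HD hN) (hDK hN hp k) d _ x

theorem DrK_comm (d d' : (ZMod N)ˣ) : Commute (DrK (p := p) hN k d) (DrK hN k d') :=
  LinearMap.ext fun x => B1.diaKum_comm (HD hN) d d' x

include hpS in
theorem fam_comm (i j : GP S ⊕ (ZMod N)ˣ) :
    Commute (fam (TlK hN hp k hNS) (DrK hN k) i) (fam (TlK hN hp k hNS) (DrK hN k) j) := by
  rcases i with ℓ | d <;> rcases j with ℓ' | d'
  · exact TlK_comm hN hp k hNS hpS ℓ ℓ'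
  · exact (DrK_TlK_comm hN hp k hNS d' ℓ).symm
  · exact DrK_TlK_comm hN hp k hNS d ℓ'
  · exact DrK_comm hN k d d'

include hpS in
theorem fam'_comm (i j : GP S ⊕ (ZMod N)ˣ) :
    Commute (fam' (TlK hN hp k hNS) (DrK hN k) (gK hNS) i)
      (fam' (TlK hN hp k hNS) (DrK hN k) (gK hNS) j) := by
  rcases i with ℓ | d <;> rcases j with ℓ' | d'
  · exact Commute.mul_left
      ((DrK_comm hN k _ _).mul_right (DrK_TlK_comm hN hp k hNS _ _))
      ((DrK_TlK_comm hN hp k hNS _ _).symm.mul_right (TlK_comm hN hp k hNS hpS ℓ ℓ'))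
  · exact Commute.mul_left (DrK_comm hN k _ _) (DrK_TlK_comm hN hp k hNS _ _).symm
  · exact Commute.mul_right (DrK_comm hN k _ _) (DrK_TlK_comm hN hp k hNS _ _)
  · exact DrK_comm hN k _ _

/-! ### the pairing -/

/-- the Weil pairing on `KK`. -/
def eKK : B1.Kum Qb (X1.F1Q N).F (p ^ k) →+ B1.Kum Qb (X1.F1Q N).F (p ^ k) →+ Additive Qbˣ :=
  haveI := ff1_F1 hN
  e1Hom (pow_pos hp.pos k).ne'

theorem eKK_eq_iff (x y x' y' : B1.Kum Qb (X1.F1Q N).F (p ^ k)) :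
    eKK hN hp k x y = eKK hN hp k x' y' ↔
      (haveI := ff1_F1 hN; e1K x y = e1K x' y') := by
  haveI := ff1_F1 hN
  constructor
  · intro h
    have := congrArg (fun u : Additive Qbˣ => ((u.toMul : Qbˣ) : Qb)) h
    exact this
  · intro h
    apply Additive.toMul.injective
    exact Units.ext h

theorem eKK_eq_zero_iff (x y : B1.Kum Qb (X1.F1Q N).F (p ^ k)) :
    eKK hN hp k x y = 0 ↔ (haveI := ff1_F1 hN; e1K x y = 1) := by
  haveI := ff1_F1 hN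
  constructor
  · intro h
    have := congrArg (fun u : Additive Qbˣ => ((u.toMul : Qbˣ) : Qb)) h
    exact this
  · intro h
    apply Additive.toMul.injective
    exact Units.ext h

/-- diamonds are isometries. -/
theorem eKK_dia (d : (ZMod N)ˣ) (x y : B1.Kum Qb (X1.F1Q N).F (p ^ k)) :
    eKK hN hp k (B1.diaKum (HD hN) (p ^ k) d x) (B1.diaKum (HD hN) (p ^ k) d y)
      = eKK hN hp k x y := by
  haveI := ff1_F1 hN
  rw [eKK_eq_iff]
  exact Fermat.Agent.S15.W.e1K_semi (pow_pos hp.pos k).ne' _ x y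

/-- Galois equivariance for a Frobenius element. -/
theorem eKK_frob {ℓ : ℕ} (hℓ : ℓ.Prime) (hℓp : ℓ ≠ p) (A : ValuationSubring Qb)
    (hA : A.LiesOverPrime ℓ) (φ : GQ) (hφ : A.IsFrobeniusAt φ ℓ)
    (x y : B1.Kum Qb (X1.F1Q N).F (p ^ k)) :
    eKK hN hp k (B1.galKum (X1.F1Q N) (p ^ k) φ x) (B1.galKum (X1.F1Q N) (p ^ k) φ y)
      = ℓ • eKK hN hp k x y := by
  haveI := ff1_F1 hN
  have hm : p ^ k ≠ 0 := (pow_pos hp.pos k).ne'
  have h1 := Fermat.Agent.S15.W.e1K_semi hm ((X1.F1Q N).galS φ) x y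
  have h2 : φ (e1K x y) = e1K x y ^ ℓ :=
    Fermat.Agent.S31.frob_apply_root A hℓ hA φ hφ
      (fun h => hℓp ((Nat.prime_dvd_prime_iff_eq hℓ hp).1 (hℓ.dvd_of_dvd_pow h)))
      (Fermat.Agent.S15.W.e1K_pow hm x y)
  apply Additive.toMul.injective
  apply Units.ext
  rw [toMul_nsmul, Units.val_pow_eq_pow_val]
  exact h1.trans h2

theorem diaK_inv_apply (d : (ZMod N)ˣ) (x : B1.Kum Qb (X1.F1Q N).F (p ^ k)) :
    B1.diaKum (HD hN) (p ^ k) d (B1.diaKum (HD hN) (p ^ k) d⁻¹ x) = x := by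
  have h := congrArg (fun e => e x) (map_mul (B1.diaRepZ (HD hN) (p ^ k)) d d⁻¹)
  rw [mul_inv_cancel, map_one] at h
  exact h.symm

theorem diaK_adj (d : (ZMod N)ˣ) (x y : B1.Kum Qb (X1.F1Q N).F (p ^ k)) :
    eKK hN hp k (B1.diaKum (HD hN) (p ^ k) d x) y
      = eKK hN hp k x (B1.diaKum (HD hN) (p ^ k) d⁻¹ y) := by
  rw [← eKK_dia hN hp k d x, diaK_inv_apply]

include hpS in
/-- **the adjoint of `T_ℓ` is `⟨ℓ⟩⁻¹ T_ℓ`.** -/
theorem heckeK_adj (ℓ : GP S) (x y : B1.Kum Qb (X1.F1Q N).F (p ^ k)) :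
    eKK hN hp k (B1.heckeKum (HD hN) (hDK hN hp k) (ℓ.good hNS) x) y
      = eKK hN hp k x (B1.diaKum (HD hN) (p ^ k) (B1.gpUnit (ℓ.good hNS))⁻¹
          (B1.heckeKum (HD hN) (hDK hN hp k) (ℓ.good hNS) y)) := by
  obtain ⟨A, hA, φ, hφ⟩ := Fermat.Agent.S54.exists_frob ℓ.1 ℓ.2.1
  have hm : p ^ k ≠ 0 := (pow_pos hp.pos k).ne'
  have hℓp : ℓ.1 ≠ p := fun h => ℓ.2.2 (h ▸ hpS)
  refine adj_abs (eKK hN hp k) (B1.galKum (X1.F1Q N) (p ^ k) φ) (B1.galKum (X1.F1Q N) (p ^ k) φ⁻¹)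
    (B1.diaKum (HD hN) (p ^ k) (B1.gpUnit (ℓ.good hNS)))
    (B1.diaKum (HD hN) (p ^ k) (B1.gpUnit (ℓ.good hNS))⁻¹)
    (B1.heckeKum (HD hN) (hDK hN hp k) (ℓ.good hNS)) ℓ.1 ?_ ?_ ?_ ?_ ?_ ?_ ?_ x y
  · intro z
    rw [← B1.galKum_mul, mul_inv_cancel, B1.galKum_one]
  · intro z
    exact diaK_inv_apply hN k _ z
  · intro z
    have h := diaK_inv_apply (p := p) hN k (B1.gpUnit (ℓ.good hNS))⁻¹ z
    rw [inv_inv] at h
    exact h
  · exact eKK_frob hN hp k ℓ.2.1 hℓp A hA φ hφ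
  · exact eKK_dia hN hp k _
  · intro z
    exact B1.heckeKum_eq (HD hN) (hDK hN hp k) hm _ (cruxK hN hp k hNS hpS ℓ) A hA φ hφ z
  · intro z
    exact B1.diaKum_galKum (HD hN) _ φ z

include hpS in
theorem fam_adj (i : GP S ⊕ (ZMod N)ˣ) (x y : B1.Kum Qb (X1.F1Q N).F (p ^ k)) :
    eKK hN hp k (fam (TlK hN hp k hNS) (DrK hN k) i x) y
      = eKK hN hp k x (fam' (TlK hN hp k hNS) (DrK hN k) (gK hNS) i y) := by
  rcases i with ℓ | d
  · exact heckeK_adj hN hp k hNS hpS ℓ x y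
  · exact diaK_adj hN hp k d x y

include hpS in
/-- **the Weil pairing is non degenerate on `K0`** (shape of `Ctl.Hyp.ndK`). -/
theorem ndK (y : B1.Kum Qb (X1.F1Q N).F (p ^ k)) (hy : y ∈ K0 hN hp k hNS a)
    (h : ∀ b ∈ K0 hN hp k hNS a, eKK hN hp k b y = 0) : y = 0 := by
  haveI := ff1_F1 hN
  haveI : Finite (B1.Kum Qb (X1.F1Q N).F (p ^ k)) := CH.finite_F1 N hN (pow_pos hp.pos k)
  have halg : Algebra.IsAlgebraic ℚ (AlgebraicClosure ℚ) :=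
    (inferInstance : @Algebra.IsAlgebraic ℚ (AlgebraicClosure ℚ) _ _
      (AlgebraicClosure.instAlgebra ℚ))
  refine nondeg_of_adj (fam_comm hN hp k hNS hpS) (fam'_comm hN hp k hNS hpS) hp
    (k := k) (fun x => B1.Kum.nsmul_eq_zero x) (eKK hN hp k) (fam_adj hN hp k hNS hpS)
    (Vth_fam'_eq _ _ _ (DrK_TlK_comm hN hp k hNS) _) ?_ hy h
  intro z hz
  exact ND.eq_zero_of_e1K_right (pow_pos hp.pos k).ne'
    ((IsAlgClosed.lift : AlgebraicClosure ℚ →ₐ[ℚ] ℂ) : AlgebraicClosure ℚ →+* ℂ)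
    (fun b => (eKK_eq_zero_iff hN hp k b z).1 (hz b))

end

end Fermat.Agent.S43.Th
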