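import Fermat.Agent.S43.Th.Abs

/-!
# S43 / Th / Adj : non degeneracy on a generalised eigenspace for NON self-adjoint operators

On `Γ₁(N)` the Hecke operators are not self-adjoint for the Weil pairing: `T_ℓ^* = ⟨ℓ⟩⁻¹ T_ℓ`, `⟨d⟩^* = ⟨d⟩⁻¹`.

* `adj_lift`      : `B (P(T) a) b = B a (P(T') b)` if `T'` is the (commuting) adjoint family of `T`;
* `nondeg_of_adj` : if `Vth T' lam = Vth T lam` and `B` is non degenerate on `V`, it is non degenerate on `Vth T lam`;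
* `fam`, `fam'`, `lamS`, `Vth_fam'_eq` : the family `{T_ℓ} ∪ {⟨d⟩}` with eigenvalues `a ℓ`, `1`, its adjoint family
  `{⟨g ℓ⟩⁻¹ T_ℓ} ∪ {⟨d⟩⁻¹}`; both have the same generalised eigenspace.
-/

set_option autoImplicit false

namespace Fermat.Agent.S43.Th

variable {V ι : Type*} [AddCommGroup V]

theorem adj_lift {X : Type*} [AddCommGroup X] {T T' : ι → Module.End ℤ V}
    (hT' : ∀ i j, Commute (T' i) (T' j))
    (B : V →+ V →+ X) (hB : ∀ i x y, B (T i x) y = B x (T' i y)) (Q : FreeAlgebra ℤ ι) :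
    ∀ a b : V, B (FreeAlgebra.lift ℤ T Q a) b = B a (FreeAlgebra.lift ℤ T' Q b) := by
  induction Q using FreeAlgebra.induction with
  | grade0 r =>
    intro a b
    rw [AlgHom.commutes, AlgHom.commutes, Module.algebraMap_end_apply, Module.algebraMap_end_apply,
      map_zsmul, map_zsmul]
    rfl
  | grade1 i => intro a b; rw [FreeAlgebra.lift_ι_apply, FreeAlgebra.lift_ι_apply]; exact hB i a b
  | mul c d hc hd =>
    intro a b
    rw [map_mul, map_mul, Module.End.mul_apply, hc, hd, ← Module.End.mul_apply,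
      (lift_commute hT' d c).eq]
  | add c d hc hd =>
    intro a b
    rw [map_add, map_add, LinearMap.add_apply, LinearMap.add_apply, map_add, map_add,
      AddMonoidHom.add_apply, hc, hd]

/-- **non degeneracy on the generalised eigenspace.** -/
theorem nondeg_of_adj [Finite V] {X : Type*} [AddCommGroup X] {T T' : ι → Module.End ℤ V}
    (hT : ∀ i j, Commute (T i) (T j)) (hT' : ∀ i j, Commute (T' i) (T' j))
    {lam : ι → ℤ} {p k : ℕ} (hp : p.Prime) (hpk : ∀ x : V, (p ^ k) • x = 0)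
    (B : V →+ V →+ X) (hB : ∀ i x y, B (T i x) y = B x (T' i y))
    (hsame : Vth T' lam = Vth T lam) (hnd : ∀ a, (∀ b, B b a = 0) → a = 0)
    {a : V} (ha : a ∈ Vth T lam) (h : ∀ b ∈ Vth T lam, B b a = 0) : a = 0 := by
  apply hnd
  intro b
  obtain ⟨y, hy, z, hz, rfl⟩ := exists_decomp hT lam hp b
  rw [map_add, AddMonoidHom.add_apply, h y hy, zero_add]
  obtain ⟨P, hP, hP'⟩ := hz
  have ha' : a ∈ Vth T' lam := hsame ▸ ha
  obtain ⟨a₁, -, rfl⟩ := lift_surjOn hT' hp hpk hP' ha'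
  rw [← adj_lift hT' B hB, hP, map_zero]
  rfl

/-- a sum of two commuting operators which are nilpotent at `x` is nilpotent at `x`. -/
theorem add_pow_apply_eq_zero {A B : Module.End ℤ V} (h : Commute A B) {x : V} {m n : ℕ}
    (hA : (A ^ m) x = 0) (hB : (B ^ n) x = 0) : ((A + B) ^ (m + n)) x = 0 := by
  rw [h.add_pow, LinearMap.sum_apply]
  refine Finset.sum_eq_zero fun k _ => ?_
  rw [Module.End.mul_apply, Module.End.mul_apply]
  have hc : ((((m + n).choose k : ℕ) : Module.End ℤ V)) x = ((m + n).choose k) • x := by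
    rw [← nsmul_one, LinearMap.smul_apply, Module.End.one_apply]
  rw [hc, map_nsmul, map_nsmul]
  by_cases hk : m ≤ k
  · rw [← Module.End.mul_apply, ((h.pow_pow k (m + n - k))).eq, Module.End.mul_apply,
      Module.End.pow_map_zero_of_le hk hA, map_zero, smul_zero]
  · rw [Module.End.pow_map_zero_of_le (by omega : n ≤ m + n - k) hB, map_zero, smul_zero]

section family

variable {ι₁ G : Type*} [Group G]

/-- the family `{T_ℓ} ∪ {⟨d⟩}`. -/
def fam (Tl : ι₁ → Module.End ℤ V) (Dr : G →* Module.End ℤ V) : ι₁ ⊕ G → Module.End ℤ V :=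
  Sum.elim Tl Dr

/-- the adjoint family `{⟨g ℓ⟩⁻¹ T_ℓ} ∪ {⟨d⟩⁻¹}`. -/
def fam' (Tl : ι₁ → Module.End ℤ V) (Dr : G →* Module.End ℤ V) (g : ι₁ → G) :
    ι₁ ⊕ G → Module.End ℤ V :=
  Sum.elim (fun ℓ => Dr (g ℓ)⁻¹ * Tl ℓ) (fun d => Dr d⁻¹)

/-- the eigenvalues `a ℓ`, `1`. -/
def lamS (G : Type*) (a : ι₁ → ℤ) : ι₁ ⊕ G → ℤ := Sum.elim a (fun _ => 1)

theorem twist_nilp (Dr : G →* Module.End ℤ V) {T₁ : Module.End ℤ V} (u : G)
    (hc : Commute (Dr u) T₁) (c : ℤ) {x : V}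
    (h1 : ∃ n : ℕ, ((T₁ - algebraMap ℤ (Module.End ℤ V) c) ^ n) x = 0)
    (h2 : ∃ n : ℕ, ((Dr u - algebraMap ℤ (Module.End ℤ V) 1) ^ n) x = 0) :
    ∃ n : ℕ, ((Dr u * T₁ - algebraMap ℤ (Module.End ℤ V) c) ^ n) x = 0 := by
  obtain ⟨n₁, hn₁⟩ := h1
  obtain ⟨n₂, hn₂⟩ := h2
  set C := algebraMap ℤ (Module.End ℤ V) c with hC
  have hCc : ∀ Y : Module.End ℤ V, Commute C Y := fun Y => Algebra.commute_algebraMap_left c Y
  have h1c : ∀ Y : Module.End ℤ V, Commute (algebraMap ℤ (Module.End ℤ V) 1) Y :=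
    fun Y => Algebra.commute_algebraMap_left 1 Y
  have hdec : Dr u * T₁ - C = Dr u * (T₁ - C) + C * (Dr u - algebraMap ℤ (Module.End ℤ V) 1) := by
    rw [map_one, mul_sub, mul_sub, mul_one, (hCc (Dr u)).eq]
    abel
  have hcomm1 : Commute (Dr u) (T₁ - C) := hc.sub_right (hCc _).symm
  have hcomm2 : Commute C (Dr u - algebraMap ℤ (Module.End ℤ V) 1) := hCc _
  have hcomm : Commute (Dr u * (T₁ - C)) (C * (Dr u - algebraMap ℤ (Module.End ℤ V) 1)) := by
    refine Commute.mul_left ?_ ?_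
    · exact ((hCc _).symm).mul_right ((Commute.refl _).sub_right (h1c _).symm)
    · exact ((hCc _).symm).mul_right (hcomm1.symm.sub_right (h1c _).symm)
  refine ⟨n₁ + n₂, ?_⟩
  rw [hdec]
  refine add_pow_apply_eq_zero hcomm ?_ ?_
  · rw [hcomm1.mul_pow, Module.End.mul_apply, hn₁, map_zero]
  · rw [hcomm2.mul_pow, Module.End.mul_apply, hn₂, map_zero]

theorem Vth_fam'_eq (Tl : ι₁ → Module.End ℤ V) (Dr : G →* Module.End ℤ V) (g : ι₁ → G)
    (hc : ∀ d ℓ, Commute (Dr d) (Tl ℓ)) (a : ι₁ → ℤ) :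
    Vth (fam' Tl Dr g) (lamS G a) = Vth (fam Tl Dr) (lamS G a) := by
  ext x
  constructor
  · intro hx
    rintro (ℓ | d)
    · have h1 := hx (Sum.inl ℓ)
      have h2 := hx (Sum.inr (g ℓ)⁻¹)
      have h3 := twist_nilp Dr (T₁ := Dr (g ℓ)⁻¹ * Tl ℓ) (g ℓ)
        ((show Commute (Dr (g ℓ)) (Dr (g ℓ)⁻¹) from by
          show _ * _ = _ * _
          rw [← map_mul, ← map_mul, mul_inv_cancel, inv_mul_cancel]).mul_right (hc _ _)) (a ℓ) h1
        (by simpa [dd, fam', lamS] using h2)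
      have h4 : Dr (g ℓ) * (Dr (g ℓ)⁻¹ * Tl ℓ) = Tl ℓ := by
        rw [← mul_assoc, ← map_mul, mul_inv_cancel, map_one, one_mul]
      rw [h4] at h3
      exact h3
    · have h2 := hx (Sum.inr d⁻¹)
      simpa [dd, fam', fam, lamS] using h2
  · intro hx
    rintro (ℓ | d)
    · exact twist_nilp Dr (g ℓ)⁻¹ (hc _ _) (a ℓ) (hx (Sum.inl ℓ)) (hx (Sum.inr (g ℓ)⁻¹))
    · exact hx (Sum.inr d⁻¹)

end family

end Fermat.Agent.S43.Th
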