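import Fermat.Agent.S43.Th.KK
import Fermat.Agent.S43.R0.HeckePP

/-!
# S43 / Th / KK2 : stability properties of the `θ`-part `K0` of `KK`

* `mem_K0_of_comm` : any additive map commuting with `T_ℓ`, `⟨d⟩` preserves `K0`;
* `gal_mem_K0`, `dia_mem_K0`, `hecke_mem_K0`, `uKum_mem_K0`;
* `pull_mem_K0 : x ∈ I.Vth N (p ^ k) hNS a → pull x ∈ K0`;
* `push_mem_Vth : y ∈ K0 → push y ∈ I.Vth N (p ^ k) hNS a`;
* `finite_KK`, `killed_KK`, `exists_projK` (a polynomial in `T_ℓ`, `⟨d⟩` projecting onto `K0`).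
-/

set_option autoImplicit false
set_option linter.unusedSectionVars false
set_option linter.style.haveILetI false

open AlgebraicCurve ModularCurve

namespace Fermat.Agent.S43.Th

open Fermat.Agent.S48 Fermat.Agent.S26 Fermat.Agent.S43.R0
open Fermat.Agent.ES (Qb GQ FF)
open Fermat.Agent.SS (GP)

noncomputable section

variable {N : ℕ} [NeZero N] (hN : 5 ≤ N) {p : ℕ} (hp : p.Prime) (k : ℕ) {S : Finset ℕ}
  (hNS : ∀ r : ℕ, r.Prime → r ∣ N → r ∈ S) (hpS : p ∈ S) (a : ℕ → ℤ)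

/-- any additive map commuting with `T_ℓ` and `⟨d⟩` preserves `K0`. -/
theorem mem_K0_of_comm (f : B1.Kum Qb (X1.F1Q N).F (p ^ k) →+ B1.Kum Qb (X1.F1Q N).F (p ^ k))
    (hT : ∀ (ℓ : GP S) x, f (B1.heckeKum (HD hN) (hDK hN hp k) (ℓ.good hNS) x)
      = B1.heckeKum (HD hN) (hDK hN hp k) (ℓ.good hNS) (f x))
    (hD : ∀ (d : (ZMod N)ˣ) x, f (B1.diaKum (HD hN) (p ^ k) d x)
      = B1.diaKum (HD hN) (p ^ k) d (f x))
    {y : B1.Kum Qb (X1.F1Q N).F (p ^ k)} (hy : y ∈ K0 hN hp k hNS a) :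
    f y ∈ K0 hN hp k hNS a :=
  map_mem_Vth f (fun i x => by
    rcases i with ℓ | d
    · exact hT ℓ x
    · exact hD d x) hy

theorem gal_mem_K0 (σ : GQ) {y : B1.Kum Qb (X1.F1Q N).F (p ^ k)} (hy : y ∈ K0 hN hp k hNS a) :
    B1.galKum (X1.F1Q N) (p ^ k) σ y ∈ K0 hN hp k hNS a :=
  mem_K0_of_comm hN hp k hNS a (B1.galKum (X1.F1Q N) (p ^ k) σ)
    (fun ℓ x => B1.galKum_heckeKum (HD hN) _ σ _ x)
    (fun d x => (B1.diaKum_galKum (HD hN) d σ x).symm) hy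

theorem dia_mem_K0 (d : (ZMod N)ˣ) {y : B1.Kum Qb (X1.F1Q N).F (p ^ k)}
    (hy : y ∈ K0 hN hp k hNS a) : B1.diaKum (HD hN) (p ^ k) d y ∈ K0 hN hp k hNS a :=
  mem_K0_of_comm hN hp k hNS a (B1.diaKum (HD hN) (p ^ k) d)
    (fun ℓ x => B1.diaKum_heckeKum (HD hN) _ d _ x)
    (fun d' x => B1.diaKum_comm (HD hN) d d' x) hy

include hpS in
theorem hecke_mem_K0 (ℓ : GP S) {y : B1.Kum Qb (X1.F1Q N).F (p ^ k)}
    (hy : y ∈ K0 hN hp k hNS a) :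
    B1.heckeKum (HD hN) (hDK hN hp k) (ℓ.good hNS) y ∈ K0 hN hp k hNS a :=
  mem_K0_of_comm hN hp k hNS a (B1.heckeKum (HD hN) (hDK hN hp k) (ℓ.good hNS))
    (fun ℓ' x => B1.heckeKum_comm (HD hN) (hDK hN hp k) (pow_pos hp.pos k).ne' _ _
      (cruxK hN hp k hNS hpS ℓ) x)
    (fun d x => (B1.diaKum_heckeKum (HD hN) _ d _ x).symm) hy

include hpS in
theorem uKum_mem_K0 {q : ℕ} [Fact q.Prime] (hq : q ∣ N) {y : B1.Kum Qb (X1.F1Q N).F (p ^ k)}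
    (hy : y ∈ K0 hN hp k hNS a) : uKum hN hq (pow_pos hp.pos k) y ∈ K0 hN hp k hNS a :=
  mem_K0_of_comm hN hp k hNS a (uKum hN hq (pow_pos hp.pos k))
    (fun ℓ x => uKum_heckeKum hN hq hp k (ℓ.good hNS) (fun h => ℓ.2.2 (h ▸ hpS)) x)
    (fun d x => (diaKum_uKum hN hq (pow_pos hp.pos k) d x).symm) hy

/-- `π^*` intertwines `T_ℓ - a ℓ`. -/
theorem pull_TT (ℓ : GP S) (hℓp : ℓ.1 ≠ p) (x : ES.Kum N (p ^ k)) :
    pull hN (p ^ k) (I.TT N (p ^ k) hNS a ℓ x)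
      = (TlK hN hp k hNS ℓ - algebraMap ℤ _ (a ℓ.1)) (pull hN (p ^ k) x) := by
  haveI : NeZero ℓ.1 := ⟨ℓ.2.1.ne_zero⟩
  rw [I.TT_apply, map_sub, map_zsmul, ES.heckeT_apply, LinearMap.sub_apply, TlK_apply,
    Module.algebraMap_end_apply]
  congr 1
  exact pull_heckeKum hN hp k (ℓ.good hNS) hℓp x

/-- `π_*` intertwines `T_ℓ - a ℓ`. -/
theorem push_TT (ℓ : GP S) (hℓp : ℓ.1 ≠ p) (y : B1.Kum Qb (X1.F1Q N).F (p ^ k)) :
    push hN (p ^ k) ((TlK hN hp k hNS ℓ - algebraMap ℤ _ (a ℓ.1)) y)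
      = I.TT N (p ^ k) hNS a ℓ (push hN (p ^ k) y) := by
  haveI : NeZero ℓ.1 := ⟨ℓ.2.1.ne_zero⟩
  rw [I.TT_apply, LinearMap.sub_apply, map_sub, Module.algebraMap_end_apply, map_zsmul,
    ES.heckeT_apply, TlK_apply]
  congr 1
  exact push_heckeKum hN hp k (ℓ.good hNS) hℓp y

include hpS in
/-- **`π^*` maps the `θ`-part to the `θ`-part.** -/
theorem pull_mem_K0 {x : ES.Kum N (p ^ k)} (hx : x ∈ I.Vth N (p ^ k) hNS a) :
    pull hN (p ^ k) x ∈ K0 hN hp k hNS a := by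
  rw [mem_K0]
  refine ⟨fun ℓ => ?_, fun d => ⟨1, ?_⟩⟩
  · obtain ⟨n, hn⟩ := hx ℓ
    refine ⟨n, ?_⟩
    rw [← I.AI_pow_intertwine (I.TT N (p ^ k) hNS a ℓ) _ (pull hN (p ^ k))
      (pull_TT hN hp k hNS a ℓ (fun h => ℓ.2.2 (h ▸ hpS))), hn, map_zero]
  · rw [pow_one, LinearMap.sub_apply, DrK_apply, dia_pull, Module.algebraMap_end_apply, one_smul,
      sub_self]

include hpS in
/-- **`π_*` maps the `θ`-part to the `θ`-part.** -/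
theorem push_mem_Vth {y : B1.Kum Qb (X1.F1Q N).F (p ^ k)} (hy : y ∈ K0 hN hp k hNS a) :
    push hN (p ^ k) y ∈ I.Vth N (p ^ k) hNS a := by
  intro ℓ
  obtain ⟨n, hn⟩ := ((mem_K0 hN hp k hNS a).1 hy).1 ℓ
  refine ⟨n, ?_⟩
  rw [← I.AI_pow_intertwine _ (I.TT N (p ^ k) hNS a ℓ) (push hN (p ^ k))
    (push_TT hN hp k hNS a ℓ (fun h => ℓ.2.2 (h ▸ hpS))), hn, map_zero]

include hN hp in
theorem finite_KK : Finite (B1.Kum Qb (X1.F1Q N).F (p ^ k)) := CH.finite_F1 N hN (pow_pos hp.pos k)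

theorem killed_KK (y : B1.Kum Qb (X1.F1Q N).F (p ^ k)) : (p ^ k) • y = 0 :=
  B1.Kum.nsmul_eq_zero y

end

end Fermat.Agent.S43.Th
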