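import Mathlib

/-!
# S43/Th, abstract layer: localisation of a finite Hecke module at an eigensystem `lam mod p`

`V` an abelian group, `T : ι → Module.End ℤ V` pairwise commuting, `lam : ι → ℤ`, `p` a prime.

* `Vth T lam`   : `{x | ∀ i, ∃ n, (T i - lam i) ^ n x = 0}`  (generalised eigenspace);
* `Vco T lam p` : `{x | ∃ P, P(T) x = 0 ∧ p ∤ P(lam)}`       (the complement).

Main results (`V` finite, killed by `p ^ k`):
`exists_eigen` (a nonzero stable subgroup of `Vth` contains an honest eigenvector killed by `p`), `inf_eq_bot`, `sup_eq_top`,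
`lift_bijOn` (`P(T)` is bijective on `Vth` if `p ∤ P(lam)`), functoriality (`map_mem_Vth`, `map_mem_Vco`, `exists_preimage`),
orthogonality (`orth`).
-/

set_option autoImplicit false

namespace Fermat.Agent.S43.Th

variable {V W ι : Type*} [AddCommGroup V] [AddCommGroup W]

/-- `T i - lam i`. -/
def dd (T : ι → Module.End ℤ V) (lam : ι → ℤ) (i : ι) : Module.End ℤ V :=
  T i - algebraMap ℤ (Module.End ℤ V) (lam i)

theorem dd_apply (T : ι → Module.End ℤ V) (lam : ι → ℤ) (i : ι) (x : V) :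
    dd T lam i x = T i x - lam i • x := by
  simp [dd]

/-- the generalised eigenspace. -/
def Vth (T : ι → Module.End ℤ V) (lam : ι → ℤ) : AddSubgroup V where
  carrier := {x | ∀ i, ∃ n : ℕ, (dd T lam i ^ n) x = 0}
  add_mem' := by
    intro x y hx hy i
    obtain ⟨n, hn⟩ := hx i
    obtain ⟨m, hm⟩ := hy i
    refine ⟨max n m, ?_⟩
    rw [map_add, Module.End.pow_map_zero_of_le (le_max_left n m) hn,
      Module.End.pow_map_zero_of_le (le_max_right n m) hm, add_zero]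
  zero_mem' := fun i => ⟨0, by simp⟩
  neg_mem' := by
    intro x hx i
    obtain ⟨n, hn⟩ := hx i
    exact ⟨n, by rw [map_neg, hn, neg_zero]⟩

theorem mem_Vth {T : ι → Module.End ℤ V} {lam : ι → ℤ} {x : V} :
    x ∈ Vth T lam ↔ ∀ i, ∃ n : ℕ, (dd T lam i ^ n) x = 0 := Iff.rfl

/-- an operator commuting with all `T i` commutes with all `P(T)`. -/
theorem commute_lift {T : ι → Module.End ℤ V} {B : Module.End ℤ V} (hB : ∀ i, Commute B (T i))
    (P : FreeAlgebra ℤ ι) : Commute B (FreeAlgebra.lift ℤ T P) := by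
  induction P using FreeAlgebra.induction with
  | grade0 r => rw [AlgHom.commutes]; exact Algebra.commute_algebraMap_right r B
  | grade1 i => rw [FreeAlgebra.lift_ι_apply]; exact hB i
  | mul a b ha hb => rw [map_mul]; exact ha.mul_right hb
  | add a b ha hb => rw [map_add]; exact ha.add_right hb

theorem lift_commute {T : ι → Module.End ℤ V} (hT : ∀ i j, Commute (T i) (T j))
    (P Q : FreeAlgebra ℤ ι) : Commute (FreeAlgebra.lift ℤ T P) (FreeAlgebra.lift ℤ T Q) :=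
  commute_lift (fun i => (commute_lift (fun j => hT i j) P).symm) Q

/-- equivariant maps commute with `P(T)`. -/
theorem map_lift {T : ι → Module.End ℤ V} {T' : ι → Module.End ℤ W} (f : V →+ W)
    (hf : ∀ i x, f (T i x) = T' i (f x)) (P : FreeAlgebra ℤ ι) (x : V) :
    f (FreeAlgebra.lift ℤ T P x) = FreeAlgebra.lift ℤ T' P (f x) := by
  induction P using FreeAlgebra.induction generalizing x with
  | grade0 r =>
    rw [AlgHom.commutes, AlgHom.commutes, Module.algebraMap_end_apply,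
      Module.algebraMap_end_apply, map_zsmul]
  | grade1 i => rw [FreeAlgebra.lift_ι_apply, FreeAlgebra.lift_ι_apply]; exact hf i x
  | mul a b ha hb => rw [map_mul, map_mul, Module.End.mul_apply, Module.End.mul_apply, ha, hb]
  | add a b ha hb => rw [map_add, map_add, LinearMap.add_apply, LinearMap.add_apply, map_add, ha, hb]

/-- on an eigenvector `P(T)` acts by `P(lam)`. -/
theorem lift_apply_eigen {T : ι → Module.End ℤ V} {lam : ι → ℤ} {x : V}
    (hx : ∀ i, T i x = lam i • x) (P : FreeAlgebra ℤ ι) :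
    FreeAlgebra.lift ℤ T P x = FreeAlgebra.lift ℤ lam P • x := by
  induction P using FreeAlgebra.induction with
  | grade0 r => simp
  | grade1 i => rw [FreeAlgebra.lift_ι_apply, FreeAlgebra.lift_ι_apply]; exact hx i
  | mul a b ha hb =>
    rw [map_mul, map_mul, Module.End.mul_apply, hb, map_zsmul, ha, smul_smul, mul_comm]
  | add a b ha hb => rw [map_add, map_add, LinearMap.add_apply, ha, hb, add_smul]

/-- the complement. -/
def Vco (T : ι → Module.End ℤ V) (hT : ∀ i j, Commute (T i) (T j)) (lam : ι → ℤ) (p : ℕ)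
    (hp : p.Prime) : AddSubgroup V where
  carrier := {x | ∃ P : FreeAlgebra ℤ ι, FreeAlgebra.lift ℤ T P x = 0 ∧
    ¬ (p : ℤ) ∣ FreeAlgebra.lift ℤ lam P}
  add_mem' := by
    rintro x y ⟨P, hP, hP'⟩ ⟨Q, hQ, hQ'⟩
    refine ⟨P * Q, ?_, ?_⟩
    · rw [map_mul, map_add, Module.End.mul_apply, Module.End.mul_apply, hQ, map_zero, add_zero,
        ← Module.End.mul_apply, (lift_commute hT P Q).eq, Module.End.mul_apply, hP, map_zero]
    · rw [map_mul]
      intro h
      rcases (Nat.prime_iff_prime_int.1 hp).dvd_or_dvd h with h | h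
      · exact hP' h
      · exact hQ' h
  zero_mem' := ⟨1, by simp, by
    rw [map_one]
    intro h
    exact hp.one_lt.ne' (by exact_mod_cast Int.eq_one_of_dvd_one (by positivity) h)⟩
  neg_mem' := by
    rintro x ⟨P, hP, hP'⟩
    exact ⟨P, by rw [map_neg, hP, neg_zero], hP'⟩

theorem mem_Vco {T : ι → Module.End ℤ V} {hT : ∀ i j, Commute (T i) (T j)} {lam : ι → ℤ} {p : ℕ}
    {hp : p.Prime} {x : V} : x ∈ Vco T hT lam p hp ↔ ∃ P : FreeAlgebra ℤ ι,
      FreeAlgebra.lift ℤ T P x = 0 ∧ ¬ (p : ℤ) ∣ FreeAlgebra.lift ℤ lam P := Iff.rfl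

/-! ### functoriality -/

theorem map_dd_pow {T : ι → Module.End ℤ V} {T' : ι → Module.End ℤ W} (lam : ι → ℤ) (f : V →+ W)
    (hf : ∀ i x, f (T i x) = T' i (f x)) (i : ι) (n : ℕ) (x : V) :
    f ((dd T lam i ^ n) x) = (dd T' lam i ^ n) (f x) := by
  induction n generalizing x with
  | zero => simp
  | succ n ih =>
    rw [pow_succ, pow_succ, Module.End.mul_apply, Module.End.mul_apply, ih, dd_apply, dd_apply,
      map_sub, map_zsmul, hf]

theorem map_mem_Vth {T : ι → Module.End ℤ V} {T' : ι → Module.End ℤ W} {lam : ι → ℤ} (f : V →+ W)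
    (hf : ∀ i x, f (T i x) = T' i (f x)) {x : V} (hx : x ∈ Vth T lam) : f x ∈ Vth T' lam := by
  intro i
  obtain ⟨n, hn⟩ := hx i
  exact ⟨n, by rw [← map_dd_pow lam f hf, hn, map_zero]⟩

theorem map_mem_Vco {T : ι → Module.End ℤ V} {T' : ι → Module.End ℤ W}
    {hT : ∀ i j, Commute (T i) (T j)} {hT' : ∀ i j, Commute (T' i) (T' j)} {lam : ι → ℤ} {p : ℕ}
    {hp : p.Prime} (f : V →+ W)
    (hf : ∀ i x, f (T i x) = T' i (f x)) {x : V} (hx : x ∈ Vco T hT lam p hp) :
    f x ∈ Vco T' hT' lam p hp := by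
  obtain ⟨P, hP, hP'⟩ := hx
  exact ⟨P, by rw [← map_lift f hf, hP, map_zero], hP'⟩

/-- `Vth` is stable under `P(T)`. -/
theorem lift_mem_Vth {T : ι → Module.End ℤ V} (hT : ∀ i j, Commute (T i) (T j)) {lam : ι → ℤ}
    (P : FreeAlgebra ℤ ι) {x : V} (hx : x ∈ Vth T lam) : FreeAlgebra.lift ℤ T P x ∈ Vth T lam :=
  map_mem_Vth (FreeAlgebra.lift ℤ T P).toAddMonoidHom (fun i y => by
    have h := (commute_lift (fun j => hT i j) P).eq
    have h2 := congrArg (fun e : Module.End ℤ V => e y) h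
    exact h2.symm) hx


/-! ### eigenvectors -/

/-- a locally nilpotent operator on a nonzero subgroup has a nonzero kernel there. -/
theorem exists_ker_of_nilp (B : Module.End ℤ V) (U : AddSubgroup V) (hBU : ∀ x ∈ U, B x ∈ U)
    (hnil : ∀ x ∈ U, ∃ n : ℕ, (B ^ n) x = 0) (hU : U ≠ ⊥) : ∃ y ∈ U, y ≠ 0 ∧ B y = 0 := by
  classical
  obtain ⟨x, hxU, hx0⟩ : ∃ x ∈ U, x ≠ 0 := by
    obtain ⟨x, hx⟩ := AddSubgroup.ne_bot_iff_exists_ne_zero.1 hU
    exact ⟨(x : V), x.2, fun h => hx (Subtype.ext h)⟩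
  have hpow : ∀ m : ℕ, (B ^ m) x ∈ U := by
    intro m
    induction m with
    | zero => simpa using hxU
    | succ m ih => rw [pow_succ', Module.End.mul_apply]; exact hBU _ ih
  have hex := hnil x hxU
  have hn0 : Nat.find hex ≠ 0 := by
    intro h0
    have h1 := Nat.find_spec hex
    rw [h0] at h1
    exact hx0 (by simpa using h1)
  obtain ⟨m, hm⟩ := Nat.exists_eq_succ_of_ne_zero hn0
  refine ⟨(B ^ m) x, hpow m, ?_, ?_⟩
  · exact Nat.find_min hex (by omega)
  · have h1 := Nat.find_spec hex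
    rw [hm, Nat.succ_eq_add_one, pow_succ', Module.End.mul_apply] at h1
    exact h1

theorem exists_eigen [Finite V] {T : ι → Module.End ℤ V} (hT : ∀ i j, Commute (T i) (T j))
    {lam : ι → ℤ} {p k : ℕ} (hpk : ∀ x : V, (p ^ k) • x = 0)
    (U : AddSubgroup V) (hU : U ≠ ⊥) (hUT : ∀ i, ∀ x ∈ U, T i x ∈ U) (hUth : U ≤ Vth T lam) :
    ∃ x ∈ U, x ≠ 0 ∧ p • x = 0 ∧ ∀ i, T i x = lam i • x := by
  classical
  let Pp : AddSubgroup V → Prop := fun U' => U' ≠ ⊥ ∧ U' ≤ U ∧ ∀ i, ∀ x ∈ U', T i x ∈ U'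
  obtain ⟨U₀, ⟨h0, h0U, h0T⟩, hmin⟩ := exists_minimal_of_wellFoundedLT Pp ⟨U, hU, le_rfl, hUT⟩
  have key : ∀ B : Module.End ℤ V, (∀ i, Commute B (T i)) → (∀ x ∈ U₀, B x ∈ U₀) →
      (∀ x ∈ U₀, ∃ n : ℕ, (B ^ n) x = 0) → ∀ x ∈ U₀, B x = 0 := by
    intro B hBT hBU hnil
    let K : AddSubgroup V := U₀ ⊓ B.toAddMonoidHom.ker
    have hK : Pp K := by
      refine ⟨?_, inf_le_left.trans h0U, ?_⟩
      · obtain ⟨y, hy, hy0, hBy⟩ := exists_ker_of_nilp B U₀ hBU hnil h0
        intro hbot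
        have : y ∈ K := ⟨hy, hBy⟩
        rw [hbot] at this
        exact hy0 this
      · rintro i x ⟨hx, hBx⟩
        refine ⟨h0T i x hx, ?_⟩
        have h1 := congrArg (fun e : Module.End ℤ V => e x) (hBT i).eq
        have hBx' : B x = 0 := hBx
        show B (T i x) = 0
        have h2 : B (T i x) = T i (B x) := h1
        rw [h2, hBx', map_zero]
    have hle : U₀ ≤ K := hmin hK inf_le_left
    intro x hx
    exact (hle hx).2
  obtain ⟨x, hxU, hx0⟩ : ∃ x ∈ U₀, x ≠ 0 := by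
    obtain ⟨x, hx⟩ := AddSubgroup.ne_bot_iff_exists_ne_zero.1 h0
    exact ⟨(x : V), x.2, fun h => hx (Subtype.ext h)⟩
  refine ⟨x, h0U hxU, hx0, ?_, fun i => ?_⟩
  · have h1 := key (algebraMap ℤ (Module.End ℤ V) (p : ℤ))
      (fun i => Algebra.commute_algebraMap_left _ _)
      (fun y hy => by
        rw [Module.algebraMap_end_apply]
        exact U₀.zsmul_mem hy _)
      (fun y _ => ⟨k, by
        rw [← map_pow, Module.algebraMap_end_apply]
        have := hpk y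
        rw [← natCast_zsmul] at this
        rw [← this]
        push_cast
        rfl⟩) x hxU
    rw [Module.algebraMap_end_apply, natCast_zsmul] at h1
    exact h1
  · have h1 := key (dd T lam i)
      (fun j => by
        unfold dd
        exact (hT i j).sub_left (Algebra.commute_algebraMap_left _ _))
      (fun y hy => by
        rw [dd_apply]
        exact U₀.sub_mem (h0T i y hy) (U₀.zsmul_mem hy _))
      (fun y hy => hUth (h0U hy) i) x hxU
    rw [dd_apply, sub_eq_zero] at h1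
    exact h1

/-- `Vth ∩ Vco = 0`. -/
theorem inf_eq_bot [Finite V] {T : ι → Module.End ℤ V} (hT : ∀ i j, Commute (T i) (T j))
    {lam : ι → ℤ} {p k : ℕ} (hp : p.Prime) (hpk : ∀ x : V, (p ^ k) • x = 0) {x : V}
    (hx : x ∈ Vth T lam) (hx' : x ∈ Vco T hT lam p hp) : x = 0 := by
  by_contra hx0
  obtain ⟨P, hP, hP'⟩ := hx'
  -- the cyclic submodule
  let U : AddSubgroup V :=
    { carrier := {y | ∃ Q : FreeAlgebra ℤ ι, y = FreeAlgebra.lift ℤ T Q x}
      add_mem' := by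
        rintro _ _ ⟨Q, rfl⟩ ⟨Q', rfl⟩
        exact ⟨Q + Q', by rw [map_add, LinearMap.add_apply]⟩
      zero_mem' := ⟨0, by simp⟩
      neg_mem' := by
        rintro _ ⟨Q, rfl⟩
        exact ⟨-Q, by rw [map_neg, LinearMap.neg_apply]⟩ }
  have hxU : x ∈ U := ⟨1, by simp⟩
  have hU : U ≠ ⊥ := by
    intro h
    rw [h] at hxU
    exact hx0 hxU
  obtain ⟨y, ⟨Q, rfl⟩, hy0, hpy, hy⟩ := exists_eigen hT hpk U hU
    (by
      rintro i _ ⟨Q, rfl⟩
      exact ⟨FreeAlgebra.ι ℤ i * Q, by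
        rw [map_mul, FreeAlgebra.lift_ι_apply, Module.End.mul_apply]⟩)
    (by
      rintro _ ⟨Q, rfl⟩
      exact lift_mem_Vth hT Q hx)
  apply hy0
  have h1 := lift_apply_eigen hy P
  rw [← Module.End.mul_apply, (lift_commute hT P Q).eq, Module.End.mul_apply, hP, map_zero] at h1
  have hcop : IsCoprime (p : ℤ) (FreeAlgebra.lift ℤ lam P) :=
    (Nat.prime_iff_prime_int.1 hp).coprime_iff_not_dvd.2 hP'
  obtain ⟨u, v, huv⟩ := hcop
  have h2 : (u * (p : ℤ) + v * FreeAlgebra.lift ℤ lam P) • FreeAlgebra.lift ℤ T Q x = 0 := by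
    rw [add_smul, mul_smul, mul_smul, ← h1, natCast_zsmul, hpy, smul_zero, smul_zero, add_zero]
  rw [huv, one_smul] at h2
  exact h2


/-! ### the decomposition -/

theorem exists_r {R K : Type*} [CommRing R] [Finite R] [Field K] (χ : R →+* K) :
    ∃ (r : R) (n : ℕ), χ r = 1 ∧ ∀ z ∈ (RingHom.ker χ) ^ n, r * z = 0 := by
  classical
  obtain ⟨𝔪, h𝔪⟩ : ∃ 𝔪 : Ideal R, 𝔪 = RingHom.ker χ := ⟨_, rfl⟩
  rw [← h𝔪]
  obtain ⟨n, hn⟩ := IsArtinian.monotone_stabilizes (R := R) (M := R)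
    ⟨fun n => OrderDual.toDual (𝔪 ^ n), fun a b hab => Ideal.pow_le_pow_right hab⟩
  have hn1 : 𝔪 ^ n = 𝔪 ^ (n + 1) := OrderDual.toDual.injective (hn (n + 1) (Nat.le_succ n))
  obtain ⟨r, hr1, hr0⟩ := Submodule.exists_sub_one_mem_and_smul_eq_zero_of_fg_of_le_smul
    𝔪 (𝔪 ^ n : Ideal R) (IsNoetherian.noetherian _) (by
      rw [smul_eq_mul, ← pow_succ', ← hn1])
  have hχr : χ r = 1 := by
    rw [h𝔪, RingHom.mem_ker, map_sub, map_one, sub_eq_zero] at hr1
    exact hr1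
  exact ⟨r, n, hχr, fun z hz => hr0 z hz⟩

open scoped IsMulCommutative in
/-- a polynomial `E` such that `E(T)` maps `V` to `Vth` and `1 - E(T)` maps `V` to `Vco`. -/
theorem exists_proj [Finite V] {T : ι → Module.End ℤ V} (hT : ∀ i j, Commute (T i) (T j))
    (lam : ι → ℤ) {p : ℕ} (hp : p.Prime) :
    ∃ E : FreeAlgebra ℤ ι, (∀ x, FreeAlgebra.lift ℤ T E x ∈ Vth T lam) ∧
      ∀ x, x - FreeAlgebra.lift ℤ T E x ∈ Vco T hT lam p hp := by
  classical
  have : Fact p.Prime := ⟨hp⟩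
  by_cases h : ∀ P : FreeAlgebra ℤ ι, FreeAlgebra.lift ℤ T P = 0 →
      (p : ℤ) ∣ FreeAlgebra.lift ℤ lam P
  swap
  · push Not at h
    obtain ⟨P, hP, hP'⟩ := h
    refine ⟨0, fun x => by simp, fun x => ⟨P, by rw [hP]; rfl, hP'⟩⟩
  have hcomm : IsMulCommutative (FreeAlgebra.lift ℤ T).range := by
    rw [← Algebra.adjoin_range_eq_range_freeAlgebra_lift]
    apply Algebra.isMulCommutative_adjoin
    rintro _ ⟨i, rfl⟩ _ ⟨j, rfl⟩
    exact hT i j
  have hfinEnd : Finite (Module.End ℤ V) := Finite.of_injective (fun f => (f : V → V))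
    DFunLike.coe_injective
  have hfin : Finite (FreeAlgebra.lift ℤ T).range := Subtype.finite
  let θ : FreeAlgebra ℤ ι →+* (FreeAlgebra.lift ℤ T).range :=
    (FreeAlgebra.lift ℤ T).rangeRestrict.toRingHom
  have hθ : Function.Surjective θ := (FreeAlgebra.lift ℤ T).rangeRestrict_surjective
  have hθv : ∀ P, ((θ P : (FreeAlgebra.lift ℤ T).range) : Module.End ℤ V)
      = FreeAlgebra.lift ℤ T P := fun P => rfl
  let χ : (FreeAlgebra.lift ℤ T).range →+* ZMod p :=
    RingHom.liftOfSurjective θ hθ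
      ⟨(Int.castRingHom (ZMod p)).comp (FreeAlgebra.lift ℤ lam).toRingHom, by
      intro P hP
      rw [RingHom.mem_ker] at hP ⊢
      exact (ZMod.intCast_zmod_eq_zero_iff_dvd _ p).mpr (h P (congrArg Subtype.val hP))⟩
  have hχ : ∀ P, χ (θ P) = ((FreeAlgebra.lift ℤ lam P : ℤ) : ZMod p) := fun P =>
    RingHom.liftOfRightInverse_comp_apply θ _ _ _ P
  obtain ⟨r, n, hr1, hr0⟩ := exists_r χ
  obtain ⟨Pr, rfl⟩ := hθ r
  obtain ⟨s, hs⟩ : θ Pr ∣ 1 - (1 - θ Pr) ^ n := by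
    have := sub_dvd_pow_sub_pow (1 : (FreeAlgebra.lift ℤ T).range) (1 - θ Pr) n
    rwa [one_pow, sub_sub_cancel] at this
  have hmem : (1 - θ Pr) ^ n ∈ (RingHom.ker χ) ^ n := by
    apply Ideal.pow_mem_pow
    rw [RingHom.mem_ker, map_sub, map_one, hr1, sub_self]
  refine ⟨1 - (1 - Pr) ^ n, fun x i => ⟨n, ?_⟩, fun x => ⟨Pr, ?_, ?_⟩⟩
  · -- `d_i ^ n * (1 - (1 - r) ^ n) = 0`
    have hd : θ (FreeAlgebra.ι ℤ i - algebraMap ℤ _ (lam i)) ∈ RingHom.ker χ := by
      rw [RingHom.mem_ker, hχ, map_sub, FreeAlgebra.lift_ι_apply, AlgHom.commutes]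
      simp
    have h1 : θ (FreeAlgebra.ι ℤ i - algebraMap ℤ _ (lam i)) ^ n * (1 - (1 - θ Pr) ^ n) = 0 := by
      rw [hs, mul_comm, mul_assoc, mul_comm s, ← mul_assoc, hr0 _ (Ideal.pow_mem_pow hd n),
        zero_mul]
    have h2 := congrArg (fun z : (FreeAlgebra.lift ℤ T).range => (z : Module.End ℤ V) x) h1
    have h3 : dd T lam i = FreeAlgebra.lift ℤ T (FreeAlgebra.ι ℤ i - algebraMap ℤ _ (lam i)) := by
      rw [map_sub, FreeAlgebra.lift_ι_apply, AlgHom.commutes]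
      rfl
    rw [h3, ← map_pow, ← Module.End.mul_apply, ← map_mul]
    have h4 : θ (FreeAlgebra.ι ℤ i - algebraMap ℤ _ (lam i)) ^ n * (1 - (1 - θ Pr) ^ n)
        = θ ((FreeAlgebra.ι ℤ i - algebraMap ℤ _ (lam i)) ^ n * (1 - (1 - Pr) ^ n)) := by
      simp only [map_mul, map_pow, map_sub, map_one]
    rw [h4] at h2
    exact h2
  · have h1 : θ Pr * (1 - θ Pr) ^ n = 0 := hr0 _ hmem
    have h4 : θ Pr * (1 - θ Pr) ^ n = θ (Pr * (1 - Pr) ^ n) := by
      simp only [map_mul, map_pow, map_sub, map_one]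
    rw [h4] at h1
    have h2 := congrArg (fun z : (FreeAlgebra.lift ℤ T).range => (z : Module.End ℤ V) x) h1
    have h5 : x - FreeAlgebra.lift ℤ T (1 - (1 - Pr) ^ n) x
        = FreeAlgebra.lift ℤ T ((1 - Pr) ^ n) x := by
      rw [map_sub, map_one, LinearMap.sub_apply, Module.End.one_apply, sub_sub_cancel]
    rw [h5, ← Module.End.mul_apply, ← map_mul]
    exact h2
  · intro hdvd
    have h1 := hχ Pr
    rw [hr1, (ZMod.intCast_zmod_eq_zero_iff_dvd _ p).mpr hdvd] at h1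
    exact one_ne_zero h1

/-- `V = Vth + Vco`. -/
theorem exists_decomp [Finite V] {T : ι → Module.End ℤ V} (hT : ∀ i j, Commute (T i) (T j))
    (lam : ι → ℤ) {p : ℕ} (hp : p.Prime) (x : V) :
    ∃ y ∈ Vth T lam, ∃ z ∈ Vco T hT lam p hp, x = y + z := by
  obtain ⟨E, h1, h2⟩ := exists_proj hT lam hp
  exact ⟨_, h1 x, _, h2 x, by abel⟩

/-- `P(T)` is injective on `Vth` if `p ∤ P(lam)`. -/
theorem lift_injOn [Finite V] {T : ι → Module.End ℤ V} (hT : ∀ i j, Commute (T i) (T j))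
    {lam : ι → ℤ} {p k : ℕ} (hp : p.Prime) (hpk : ∀ x : V, (p ^ k) • x = 0)
    {P : FreeAlgebra ℤ ι} (hP : ¬ (p : ℤ) ∣ FreeAlgebra.lift ℤ lam P) {x : V}
    (hx : x ∈ Vth T lam) (h0 : FreeAlgebra.lift ℤ T P x = 0) : x = 0 :=
  inf_eq_bot hT hp hpk hx ⟨P, h0, hP⟩

/-- `P(T)` is surjective on `Vth` if `p ∤ P(lam)`. -/
theorem lift_surjOn [Finite V] {T : ι → Module.End ℤ V} (hT : ∀ i j, Commute (T i) (T j))
    {lam : ι → ℤ} {p k : ℕ} (hp : p.Prime) (hpk : ∀ x : V, (p ^ k) • x = 0)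
    {P : FreeAlgebra ℤ ι} (hP : ¬ (p : ℤ) ∣ FreeAlgebra.lift ℤ lam P) {x : V}
    (hx : x ∈ Vth T lam) : ∃ y ∈ Vth T lam, FreeAlgebra.lift ℤ T P y = x := by
  let f : Vth T lam → Vth T lam := fun y => ⟨FreeAlgebra.lift ℤ T P y, lift_mem_Vth hT P y.2⟩
  have hinj : Function.Injective f := by
    intro a b hab
    have h1 : FreeAlgebra.lift ℤ T P (a : V) = FreeAlgebra.lift ℤ T P (b : V) :=
      congrArg Subtype.val hab
    have h2 : ((a - b : Vth T lam) : V) = 0 :=
      lift_injOn hT hp hpk hP (a - b).2 (by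
        rw [AddSubgroup.coe_sub, map_sub, h1, sub_self])
    exact sub_eq_zero.1 (Subtype.ext h2)
  obtain ⟨y, hy⟩ := (Finite.injective_iff_surjective.1 hinj) ⟨x, hx⟩
  exact ⟨y, y.2, congrArg Subtype.val hy⟩

/-- surjective equivariant maps are surjective on `Vth`. -/
theorem exists_preimage [Finite V] [Finite W] {T : ι → Module.End ℤ V} {T' : ι → Module.End ℤ W}
    (hT : ∀ i j, Commute (T i) (T j)) (hT' : ∀ i j, Commute (T' i) (T' j))
    {lam : ι → ℤ} {p k : ℕ} (hp : p.Prime) (hpk : ∀ x : W, (p ^ k) • x = 0) (f : V →+ W)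
    (hf : ∀ i x, f (T i x) = T' i (f x)) {w : W} (hw : w ∈ Vth T' lam) (hsurj : ∃ x, f x = w) :
    ∃ y ∈ Vth T lam, f y = w := by
  obtain ⟨x, rfl⟩ := hsurj
  obtain ⟨y, hy, z, hz, rfl⟩ := exists_decomp hT lam hp x
  refine ⟨y, hy, ?_⟩
  have h1 : f z ∈ Vco T' hT' lam p hp := map_mem_Vco f hf hz
  have h2 : f z ∈ Vth T' lam := by
    have : f z = f (y + z) - f y := by rw [map_add]; abel
    rw [this]
    exact (Vth T' lam).sub_mem hw (map_mem_Vth f hf hy)
  rw [map_add, inf_eq_bot hT' hp hpk h2 h1, add_zero]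

/-- orthogonality of `Vth` and `Vco` for a pairing for which the `T i` are self-adjoint. -/
theorem orth [Finite V] {X : Type*} [AddCommGroup X] {T : ι → Module.End ℤ V}
    (hT : ∀ i j, Commute (T i) (T j))
    {lam : ι → ℤ} {p k : ℕ} (hp : p.Prime) (hpk : ∀ x : V, (p ^ k) • x = 0)
    (B : V →+ V →+ X) (hB : ∀ i x y, B (T i x) y = B x (T i y)) {x y : V}
    (hx : x ∈ Vth T lam) (hy : y ∈ Vco T hT lam p hp) : B x y = 0 := by
  obtain ⟨P, hP, hP'⟩ := hy
  obtain ⟨x₁, -, rfl⟩ := lift_surjOn hT hp hpk hP' hx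
  have key : ∀ (Q : FreeAlgebra ℤ ι) (a b : V),
      B (FreeAlgebra.lift ℤ T Q a) b = B a (FreeAlgebra.lift ℤ T Q b) := by
    intro Q
    induction Q using FreeAlgebra.induction with
    | grade0 r =>
      intro a b
      rw [AlgHom.commutes, Module.algebraMap_end_apply, Module.algebraMap_end_apply, map_zsmul,
        map_zsmul]
      rfl
    | grade1 i => intro a b; rw [FreeAlgebra.lift_ι_apply]; exact hB i a b
    | mul c d hc hd =>
      intro a b
      rw [map_mul, Module.End.mul_apply, hc, hd, ← Module.End.mul_apply,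
        (lift_commute hT d c).eq]
    | add c d hc hd =>
      intro a b
      rw [map_add, LinearMap.add_apply, LinearMap.add_apply, map_add, map_add,
        AddMonoidHom.add_apply, hc, hd]
  rw [key, hP, map_zero]

end Fermat.Agent.S43.Th
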