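import Fermat.Agent.S43.Th.Bridge
import Fermat.Agent.S43.I.Iso

/-!
# S43/Th/Bij : the non Eisenstein operator `T_ℓ₀ - (ℓ₀ + 1)` is bijective on the `θ`-part and on its inertia invariants

`m` any exponent dividing a power of `p`  (`m ∣ p ^ k`), any level `N`.
-/

set_option autoImplicit false
set_option linter.style.haveILetI false
set_option linter.unusedSectionVars false
set_option linter.unusedVariables false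

open AlgebraicCurve ModularCurve

namespace Fermat.Agent.S43.Th

open Fermat.Agent.ES Fermat.Agent.SS Fermat.Agent.S15.W

noncomputable section

variable {N : ℕ} [NeZero N] {S : Finset ℕ} {hNS : ∀ r : ℕ, r.Prime → r ∣ N → r ∈ S} {a : ℕ → ℤ}
  {m p k : ℕ}

/-- the polynomial `T_ℓ₀ - c`. -/
def polSub (S : Finset ℕ) (ℓ₀ : GP S) (c : ℤ) : FreeAlgebra ℤ (GP S) :=
  FreeAlgebra.ι ℤ ℓ₀ - algebraMap ℤ _ c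

theorem lift_polSub_apply (ℓ₀ : GP S) (c : ℤ) (x : Kum N m) :
    FreeAlgebra.lift ℤ (TT N m S hNS) (polSub S ℓ₀ c) x = TT N m S hNS ℓ₀ x - c • x := by
  unfold polSub
  rw [map_sub, FreeAlgebra.lift_ι_apply, AlgHom.commutes, LinearMap.sub_apply,
    Module.algebraMap_end_apply]

theorem lift_polSub_lam (ℓ₀ : GP S) (c : ℤ) :
    FreeAlgebra.lift ℤ (fun ℓ : GP S => a ℓ.1) (polSub S ℓ₀ c) = a ℓ₀.1 - c := by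
  unfold polSub
  rw [map_sub, FreeAlgebra.lift_ι_apply, AlgHom.commutes]
  rfl

theorem killed_of_dvd (hm : m ∣ p ^ k) (x : Kum N m) : (p ^ k) • x = 0 := by
  obtain ⟨c, hc⟩ := hm
  rw [hc, mul_comm, mul_smul, Kum.nsmul_eq_zero, smul_zero]

/-- `T_ℓ₀ - c` is injective on `Vθ` if `p ∤ a ℓ₀ - c`. -/
theorem hecke_sub_inj (hp : p.Prime) (hm0 : 0 < m) (hm : m ∣ p ^ k) {ℓ₀ : ℕ} [NeZero ℓ₀]
    (hℓ : ℓ₀.Prime) (hℓN : ¬ ℓ₀ ∣ N) (hℓS : ℓ₀ ∉ S) {c : ℤ} (hc : ¬ (p : ℤ) ∣ a ℓ₀ - c)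
    {x : Kum N m} (hx : x ∈ I.Vth N m hNS a) (h0 : heckeKum N ℓ₀ hℓ hℓN m x - c • x = 0) :
    x = 0 := by
  haveI : Finite (Kum N m) := Glue.finite_Kum hm0
  rw [I_Vth_eq] at hx
  refine lift_injOn (TT_comm m hNS) hp (killed_of_dvd hm) (P := polSub S ⟨ℓ₀, hℓ, hℓS⟩ c) ?_ hx ?_
  · rw [lift_polSub_lam]; exact hc
  · rw [lift_polSub_apply]; exact h0

/-- `T_ℓ₀ - c` is surjective on `Vθ` if `p ∤ a ℓ₀ - c`. -/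
theorem hecke_sub_surj (hp : p.Prime) (hm0 : 0 < m) (hm : m ∣ p ^ k) {ℓ₀ : ℕ} [NeZero ℓ₀]
    (hℓ : ℓ₀.Prime) (hℓN : ¬ ℓ₀ ∣ N) (hℓS : ℓ₀ ∉ S) {c : ℤ} (hc : ¬ (p : ℤ) ∣ a ℓ₀ - c)
    {x : Kum N m} (hx : x ∈ I.Vth N m hNS a) :
    ∃ y ∈ I.Vth N m hNS a, heckeKum N ℓ₀ hℓ hℓN m y - c • y = x := by
  haveI : Finite (Kum N m) := Glue.finite_Kum hm0
  rw [I_Vth_eq] at hx ⊢
  obtain ⟨y, hy, hyx⟩ := lift_surjOn (TT_comm m hNS) hp (killed_of_dvd hm)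
    (P := polSub S ⟨ℓ₀, hℓ, hℓS⟩ c) (by rw [lift_polSub_lam]; exact hc) hx
  rw [lift_polSub_apply] at hyx
  exact ⟨y, hy, hyx⟩

/-- **`T_ℓ₀ - c` is surjective on the invariants of any set of Galois elements in `Vθ`.** -/
theorem hecke_sub_surj_fixed (hp : p.Prime) (hm0 : 0 < m) (hm : m ∣ p ^ k) {ℓ₀ : ℕ} [NeZero ℓ₀]
    (hℓ : ℓ₀.Prime) (hℓN : ¬ ℓ₀ ∣ N) (hℓS : ℓ₀ ∉ S) {c : ℤ} (hc : ¬ (p : ℤ) ∣ a ℓ₀ - c)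
    (Γ : Set GQ) {x : Kum N m} (hx : x ∈ I.Vth N m hNS a) (hfix : ∀ σ ∈ Γ, galKum N m σ x = x) :
    ∃ y ∈ I.Vth N m hNS a, (∀ σ ∈ Γ, galKum N m σ y = y) ∧
      heckeKum N ℓ₀ hℓ hℓN m y - c • y = x := by
  obtain ⟨y, hy, hyx⟩ := hecke_sub_surj (hNS := hNS) hp hm0 hm hℓ hℓN hℓS hc hx
  refine ⟨y, hy, fun σ hσ => ?_, hyx⟩
  have h1 : galKum N m σ y - y ∈ I.Vth N m hNS a :=
    (I.Vth N m hNS a).sub_mem (I.gal_mem_Vth σ hy) hy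
  have h2 : heckeKum N ℓ₀ hℓ hℓN m (galKum N m σ y - y) - c • (galKum N m σ y - y) = 0 := by
    have e : heckeKum N ℓ₀ hℓ hℓN m (galKum N m σ y - y) - c • (galKum N m σ y - y)
        = galKum N m σ (heckeKum N ℓ₀ hℓ hℓN m y - c • y) - (heckeKum N ℓ₀ hℓ hℓN m y - c • y) := by
      rw [map_sub, map_sub, map_zsmul, galKum_heckeKum, smul_sub]
      abel
    rw [e, hyx, hfix σ hσ, sub_self]
  exact sub_eq_zero.1 (hecke_sub_inj (hNS := hNS) hp hm0 hm hℓ hℓN hℓS hc h1 h2)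

/-- **the non Eisenstein operator is surjective on `I.Inv`.** -/
theorem hecke_sub_surj_Inv (hp : p.Prime) (hm0 : 0 < m) (hm : m ∣ p ^ k) {ℓ₀ : ℕ} [NeZero ℓ₀]
    (hℓ : ℓ₀.Prime) (hℓN : ¬ ℓ₀ ∣ N) (hℓS : ℓ₀ ∉ S) {c : ℤ} (hc : ¬ (p : ℤ) ∣ a ℓ₀ - c)
    (A : ValuationSubring Qb) {z : Kum N m} (hz : z ∈ I.Inv N hNS a A m) :
    ∃ z₁ ∈ I.Inv N hNS a A m, heckeKum N ℓ₀ hℓ hℓN m z₁ - c • z₁ = z := by
  obtain ⟨y, hy, hfix, hyz⟩ := hecke_sub_surj_fixed (hNS := hNS) hp hm0 hm hℓ hℓN hℓS hc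
    (A.inertiaSubgroupIn ℚ : Set GQ) hz.1 hz.2
  exact ⟨y, ⟨hy, hfix⟩, hyz⟩

/-- exponent `p`, `c = ℓ₀ + 1`. -/
theorem exists_nonEis_preimage (hp : p.Prime) {ℓ₀ : ℕ} [NeZero ℓ₀]
    (hℓ : ℓ₀.Prime) (hℓN : ¬ ℓ₀ ∣ N) (hℓS : ℓ₀ ∉ S) (hc : ¬ (p : ℤ) ∣ a ℓ₀ - ℓ₀ - 1)
    (A : ValuationSubring Qb) {z : Kum N p} (hz : z ∈ I.Inv N hNS a A p) :
    ∃ z₁ ∈ I.Inv N hNS a A p, heckeKum N ℓ₀ hℓ hℓN p z₁ - (ℓ₀ + 1) • z₁ = z := by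
  obtain ⟨z₁, h1, h2⟩ := hecke_sub_surj_Inv (hNS := hNS) (k := 1) (c := (ℓ₀ : ℤ) + 1) hp hp.pos
    (by rw [pow_one]) hℓ hℓN hℓS (by rwa [← sub_sub]) A hz
  refine ⟨z₁, h1, ?_⟩
  rw [← h2, ← natCast_zsmul]
  push_cast
  rfl

end

end Fermat.Agent.S43.Th
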